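/-
Programme FF (S19), chapter F0 IFACE — helper1.  **The decomposition group on the Gauss ring.**

Concrete Galois side of the reduction datum of `Fbar M = L · F₀(M)` along a valuation subring `A ≤ L`:
for `g ∈ D_A` (decomposition group over `ℚ`)
* `smul_mem_gaussRing`  : the coefficientwise action of `g` preserves the Gauss ring
  `GaussRing15.gaussRingN A (residue A) M`;
* `gaussRed_smul`       : `red (g • f) = g̃ • red f`, `g̃ := coeffSemi κ M (psiRes A g)`;
* `gaussAct g : G ≃+* G`, the action on the Gauss ring, with `gaussAct_mul`, `gaussAct_one`;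
* `baseAut_gal`, `sigma_mem`, `residue_sigma` : the base automorphism of `g` preserves `A` and
  induces `psiRes A g` on the residue field;
* `galRes_of_mem_inertia` : inertia elements induce the trivial automorphism of `F~`;
* for a two-chart model `T` with coefficientwise charts: `r_gal` (`T.r (g • P) = g̃ • T.r P`),
  `r_gal_of_mem_inertia`.
-/
import Mathlib
import Fermat.Agent.ES.RED.GaloisInst21
import Fermat.Agent.ES.RED.GaussRing15

set_option autoImplicit false
set_option linter.unusedSectionVars false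
set_option synthInstance.maxHeartbeats 400000

noncomputable section

open AlgebraicCurve ModularCurve HahnSeries

namespace Fermat.Agent.FF.IFACE.GalInst1

open Fermat.Agent.ES.RED.GaloisRed21 Fermat.Agent.ES.RED.GaussRing15
  Fermat.Agent.ES.KRON.FrobPlace13

section Gauss

variable {L : Type*} [Field L] [Algebra ℚ L] (A : ValuationSubring L) (M : ℕ) [NeZero M]

/-- the semilinear automorphism of `F = L · F₀(M)` attached to `g ∈ D_A`. -/
abbrev gal (g : A.decompositionSubgroup ℚ) :
    SemilinearAut L ↥(laurentBaseChange L (modularFunctionFieldFull M)) :=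
  arithmeticGalois (modularFunctionFieldFull M) (g : L ≃ₐ[ℚ] L)

/-- the semilinear automorphism of `F~ = κ(j(q^d))` induced by `g ∈ D_A`. -/
abbrev galRes (g : A.decompositionSubgroup ℚ) :
    SemilinearAut (IsLocalRing.ResidueField ↥A)
      ↥(modularFunctionFieldFullC (IsLocalRing.ResidueField ↥A) M) :=
  coeffSemi (IsLocalRing.ResidueField ↥A) M (psiRes A g)

theorem gal_mul (g h : A.decompositionSubgroup ℚ) : gal A M (g * h) = gal A M g * gal A M h :=
  map_mul (arithmeticGalois (modularFunctionFieldFull M)) _ _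

theorem gal_one : gal A M 1 = 1 :=
  map_one (arithmeticGalois (modularFunctionFieldFull M))

theorem psiRes_mul (g h : A.decompositionSubgroup ℚ) :
    psiRes A (g * h) = psiRes A g * psiRes A h :=
  map_mul (MulSemiringAction.toRingAut (A.decompositionSubgroup ℚ)
    (IsLocalRing.ResidueField ↥A)) g h

theorem psiRes_one : psiRes A (1 : A.decompositionSubgroup ℚ) = 1 :=
  map_one (MulSemiringAction.toRingAut (A.decompositionSubgroup ℚ)
    (IsLocalRing.ResidueField ↥A))

theorem galRes_mul (g h : A.decompositionSubgroup ℚ) :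
    galRes A M (g * h) = galRes A M g * galRes A M h := by
  show coeffSemi _ M (psiRes A (g * h)) = _
  rw [psiRes_mul]
  exact map_mul (coeffSemiHom (IsLocalRing.ResidueField ↥A) M) _ _

theorem galRes_one : galRes A M (1 : A.decompositionSubgroup ℚ) = 1 := by
  show coeffSemi _ M (psiRes A 1) = _
  rw [psiRes_one]
  exact map_one (coeffSemiHom (IsLocalRing.ResidueField ↥A) M)

/-- the base automorphism of `gal g` is `g`. -/
theorem baseAut_gal (g : A.decompositionSubgroup ℚ) (a : L) :
    SemilinearAut.baseAut (gal A M g) a = (g : L ≃ₐ[ℚ] L) a := rfl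

/-- the base automorphism of `galRes g` is `psiRes g`. -/
theorem baseAut_galRes (g : A.decompositionSubgroup ℚ) (c : IsLocalRing.ResidueField ↥A) :
    SemilinearAut.baseAut (galRes A M g) c = psiRes A g c := rfl

/-- `g ∈ D_A` preserves `A`. -/
theorem sigma_mem (g : A.decompositionSubgroup ℚ) (a : ↥A) :
    SemilinearAut.baseAut (gal A M g) (a : L) ∈ A := (sigmaA A g a).2

/-- … and induces `psiRes A g` on the residue field. -/
theorem residue_sigma (g : A.decompositionSubgroup ℚ) (a : ↥A) :
    IsLocalRing.residue ↥A ⟨SemilinearAut.baseAut (gal A M g) (a : L), sigma_mem A M g a⟩ =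
      SemilinearAut.baseAut (galRes A M g) (IsLocalRing.residue ↥A a) := rfl

/-- **the Gauss ring is stable under `D_A`.** -/
theorem smul_mem_gaussRing (g : A.decompositionSubgroup ℚ)
    {f : ↥(laurentBaseChange L (modularFunctionFieldFull M))}
    (hf : f ∈ gaussRingN A (IsLocalRing.residue ↥A) M) :
    gal A M g • f ∈ gaussRingN A (IsLocalRing.residue ↥A) M := by
  obtain ⟨Y, hY, hYt⟩ := hf
  refine ⟨coeffMap (sigmaA A g) Y, ?_, ?_⟩
  · rw [coeffMap_subtype_sigmaA, hY]
    rfl
  · rw [coeffMap_residue_sigmaA]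
    exact (coeffAut (IsLocalRing.ResidueField ↥A) M (psiRes A g) ⟨_, hYt⟩).2

/-- **reduction is `D_A`-equivariant.** -/
theorem gaussRed_smul (g : A.decompositionSubgroup ℚ)
    (f : ↥(gaussRingN A (IsLocalRing.residue ↥A) M)) :
    gaussRedN A (IsLocalRing.residue ↥A) M ⟨gal A M g • (f : ↥(laurentBaseChange L
      (modularFunctionFieldFull M))), smul_mem_gaussRing A M g f.2⟩ =
      galRes A M g • gaussRedN A (IsLocalRing.residue ↥A) M f := by
  obtain ⟨Y, hY, hYt⟩ := f.2
  apply Subtype.ext
  have h1 : coeffMap A.subtype (coeffMap (sigmaA A g) Y) =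
      ((gal A M g • (f : ↥(laurentBaseChange L (modularFunctionFieldFull M))) :
        ↥(laurentBaseChange L (modularFunctionFieldFull M))) : LaurentSeries L) := by
    rw [coeffMap_subtype_sigmaA, hY]
    rfl
  rw [gaussRed_eq A (IsLocalRing.residue ↥A) _ _ _ h1, coe_coeffSemi_smul,
    gaussRed_eq A (IsLocalRing.residue ↥A) _ _ f hY, coeffMap_residue_sigmaA]

/-- the action of `g ∈ D_A` on the Gauss ring, as a ring automorphism. -/
def gaussAct (g : A.decompositionSubgroup ℚ) :
    ↥(gaussRingN A (IsLocalRing.residue ↥A) M) ≃+* ↥(gaussRingN A (IsLocalRing.residue ↥A) M) where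
  toFun f := ⟨gal A M g • (f : ↥(laurentBaseChange L (modularFunctionFieldFull M))),
    smul_mem_gaussRing A M g f.2⟩
  invFun f := ⟨gal A M g⁻¹ • (f : ↥(laurentBaseChange L (modularFunctionFieldFull M))),
    smul_mem_gaussRing A M g⁻¹ f.2⟩
  left_inv f := Subtype.ext (by
    show gal A M g⁻¹ • (gal A M g • (f : ↥(laurentBaseChange L (modularFunctionFieldFull M)))) = _
    rw [← mul_smul, ← gal_mul, inv_mul_cancel, gal_one, one_smul])
  right_inv f := Subtype.ext (by
    show gal A M g • (gal A M g⁻¹ • (f : ↥(laurentBaseChange L (modularFunctionFieldFull M)))) = _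
    rw [← mul_smul, ← gal_mul, mul_inv_cancel, gal_one, one_smul])
  map_mul' f f' := Subtype.ext (smul_mul' _ _ _)
  map_add' f f' := Subtype.ext (smul_add _ _ _)

@[simp] theorem coe_gaussAct (g : A.decompositionSubgroup ℚ)
    (f : ↥(gaussRingN A (IsLocalRing.residue ↥A) M)) :
    ((gaussAct A M g f : ↥(gaussRingN A (IsLocalRing.residue ↥A) M)) :
      ↥(laurentBaseChange L (modularFunctionFieldFull M))) = gal A M g • (f : ↥(laurentBaseChange L
        (modularFunctionFieldFull M))) := rfl

theorem gaussRed_gaussAct (g : A.decompositionSubgroup ℚ)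
    (f : ↥(gaussRingN A (IsLocalRing.residue ↥A) M)) :
    gaussRedN A (IsLocalRing.residue ↥A) M (gaussAct A M g f) =
      galRes A M g • gaussRedN A (IsLocalRing.residue ↥A) M f :=
  gaussRed_smul A M g f

/-- inertia elements induce the trivial automorphism of the special fibre. -/
theorem galRes_of_mem_inertia {τ : L ≃ₐ[ℚ] L} (hτ : τ ∈ A.inertiaSubgroupIn ℚ) :
    ∃ h : τ ∈ A.decompositionSubgroup ℚ, galRes A M ⟨τ, h⟩ = 1 :=
  coeffSemi_psiRes_of_mem_inertia (M := M) hτ

end Gauss

section Model

open Fermat.Agent.ES.RED.Contract8 Fermat.Agent.ES.RED.TwoCharts8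
  Fermat.Agent.ES.RED.GaloisInst21 Fermat.Agent.X0.FF

variable {L : Type*} [Field L] [Algebra ℚ L] [IsAlgClosed L] {A : ValuationSubring L}
  {M : ℕ} [NeZero M]
  {x : ↥(laurentBaseChange L (modularFunctionFieldFull M))} {hx : IsGen L x}
  (T : TwoCharts A hx ↥(modularFunctionFieldFullC (kA A) M))
  [IsAlgClosed (kA A)] {xt : ↥(modularFunctionFieldFullC (kA A) M)} (hxt : IsGen (kA A) xt)
  (h0 : CoeffChart (F₀ := modularFunctionFieldFull M) T.S0)
  (h1 : CoeffChart (F₀ := modularFunctionFieldFull M) T.S1)

include hxt h0 h1 in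
/-- **`D_A`-equivariance of the place reduction.** -/
theorem r_gal (g : A.decompositionSubgroup ℚ)
    (P : Place L ↥(laurentBaseChange L (modularFunctionFieldFull M))) :
    T.r (gal A M g • P) = galRes A M g • T.r P :=
  r_smul_decomposition' T hxt h0 h1 g P

include hxt h0 h1 in
/-- inertia fixes the fibres of the place reduction. -/
theorem r_gal_of_mem_inertia {τ : L ≃ₐ[ℚ] L} (hτ : τ ∈ A.inertiaSubgroupIn ℚ)
    (P : Place L ↥(laurentBaseChange L (modularFunctionFieldFull M))) :
    T.r (arithmeticGalois (modularFunctionFieldFull M) τ • P) = T.r P :=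
  r_smul_of_mem_inertia' T hxt h0 h1 hτ P

end Model

end Fermat.Agent.FF.IFACE.GalInst1
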