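/-
Programme FF (S19), chapter F0 IFACE — helper1.  **Gauss normalisation over `ℚbar`.**

For `A ≤ ℚbar` over a prime `ℓ ∤ M`: every nonzero `f ∈ Fbar M = ℚbar · F₀(M)` satisfies
`f · y_b = c · y_a` with `c ∈ ℚbarˣ` and `y_a, y_b` in the `q`-expansion Gauss ring
`GaussRing15.gaussRingN A (residue A) M` of NONZERO reduction (`exists_gauss_fraction`).
(The proof is the one of `GaussUnit25.principalGeneratedByIntegral`, keeping the functions instead of
their divisors: coefficient descent to a number field `K`, then (GB2) over the DVR `A ∩ K`.)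
-/
import Mathlib
import Fermat.Agent.ES.RED.GaussUnit25
import Fermat.Agent.ES.RED.GaussRing15

set_option autoImplicit false
set_option linter.style.haveILetI false

noncomputable section

open HahnSeries ModularCurve IntermediateField AlgebraicCurve

namespace Fermat.Agent.FF.IFACE.Norm1

open Fermat.Agent.RED.PUR.GaussGen8 Fermat.Agent.RED.PUR.KtGauss8
open Fermat.Agent.RED.PUR.GaussBridge10 Fermat.Agent.RED.PUR.GaussInst25
open Fermat.Agent.RED.PUR Fermat.Agent.IG.PR
open Fermat.Agent.RED.Interface4 Fermat.Agent.RED.DESC Fermat.Agent.RED.DESC.NumberFieldDVR27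
open Fermat.Agent.ES.RED.GaussUnit25 Fermat.Agent.ES.RED.GaussRing15

variable (A : ValuationSubring Qbar)

/-- An integral series over `A ∩ K` lying in `K·F_M` gives an element of the Gauss ring over `A`. -/
theorem mem_gaussRingN_of_series (K : IntermediateField ℚ Qbar) [FiniteDimensional ℚ K] (ℓ : ℕ)
    [Fact ℓ.Prime] (hA : A.LiesOverPrime ℓ) (M : ℕ) [NeZero M] (hℓM : ¬ ℓ ∣ M)
    (a : LaurentSeries ↥(AK A K)) (haE : embK (AK A K) a ∈ modularFunctionFieldFullC ↥K M)
    (hy : coeffMap A.subtype (coeffMap (incl A K) a) ∈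
      laurentBaseChange Qbar (modularFunctionFieldFull M)) :
    (⟨coeffMap A.subtype (coeffMap (incl A K) a), hy⟩ :
      ↥(laurentBaseChange Qbar (modularFunctionFieldFull M))) ∈
      gaussRingN A (IsLocalRing.residue ↥A) M := by
  haveI : IsDiscreteValuationRing ↥(AK A K) :=
    isDiscreteValuationRing_AK A K (Fact.out : ℓ.Prime).ne_zero hA
  haveI : CharP (Res (AK A K)) ℓ := charP_residueField_AK A K Fact.out hA
  obtain ⟨π, hπ⟩ := IsDiscreteValuationRing.exists_irreducible ↥(AK A K)
  refine ⟨coeffMap (incl A K) a, rfl, ?_⟩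
  rw [coeffMap_residue_incl]
  refine coeffMap_mem_fullC (resMap A K) M ?_
  rw [← resField_fullC_eq (AK A K) hπ ℓ M hℓM]
  exact ⟨embK (AK A K) a, embK_mem _ a, haE, gaussRed_embK _ a⟩

/-- … and its reduction is the coefficientwise reduction. -/
theorem gaussRedN_of_series (K : IntermediateField ℚ Qbar) [FiniteDimensional ℚ K] (ℓ : ℕ)
    [Fact ℓ.Prime] (hA : A.LiesOverPrime ℓ) (M : ℕ) [NeZero M] (hℓM : ¬ ℓ ∣ M)
    (a : LaurentSeries ↥(AK A K)) (haE : embK (AK A K) a ∈ modularFunctionFieldFullC ↥K M)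
    (hy : coeffMap A.subtype (coeffMap (incl A K) a) ∈
      laurentBaseChange Qbar (modularFunctionFieldFull M)) :
    ((gaussRedN A (IsLocalRing.residue ↥A) M
      ⟨_, mem_gaussRingN_of_series A K ℓ hA M hℓM a haE hy⟩ :
        ↥(modularFunctionFieldFullC (IsLocalRing.ResidueField ↥A) M)) :
      LaurentSeries (IsLocalRing.ResidueField ↥A)) =
      coeffMap (resMap A K) (redL (AK A K) a) := by
  rw [gaussRed_eq A (IsLocalRing.residue ↥A) _ _ _ (Y := coeffMap (incl A K) a) rfl,
    coeffMap_residue_incl]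

/-- **Gauss normalisation**: every nonzero function is `c · y_a / y_b` with `y_a, y_b` integral of
nonzero reduction. -/
theorem exists_gauss_fraction (ℓ : ℕ) [Fact ℓ.Prime] (hA : A.LiesOverPrime ℓ)
    (M : ℕ) [NeZero M] (hℓM : ¬ ℓ ∣ M)
    (f : ↥(laurentBaseChange Qbar (modularFunctionFieldFull M))) (hf0 : f ≠ 0) :
    ∃ (c : Qbar) (ya yb : ↥(gaussRingN A (IsLocalRing.residue ↥A) M)), c ≠ 0 ∧
      gaussRedN A (IsLocalRing.residue ↥A) M ya ≠ 0 ∧
      gaussRedN A (IsLocalRing.residue ↥A) M yb ≠ 0 ∧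
      f * (yb : ↥(laurentBaseChange Qbar (modularFunctionFieldFull M))) =
        algebraMap Qbar _ c * (ya : ↥(laurentBaseChange Qbar (modularFunctionFieldFull M))) := by
  haveI := isAlgebraic_Qbar
  obtain ⟨K, -, hfin, x', hx', hx'f⟩ :=
    CoeffDescent1.exists_finite_descent (L := Qbar) (F₀ := modularFunctionFieldFull M) ⊥ f.2
  haveI := hfin
  haveI : IsDiscreteValuationRing ↥(AK A K) :=
    isDiscreteValuationRing_AK A K (Fact.out : ℓ.Prime).ne_zero hA
  obtain ⟨π, hπ⟩ := IsDiscreteValuationRing.exists_irreducible ↥(AK A K)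
  have hu := isUnif_of_irreducible (AK A K) hπ
  have hx'C : x' ∈ modularFunctionFieldFullC ↥K M := by
    rw [← DegBaseChange25.laurentBaseChange_full_eq]; exact hx'
  have hx'0 : x' ≠ 0 := by
    rintro rfl
    rw [map_zero] at hx'f
    exact hf0 (Subtype.ext hx'f.symm)
  obtain ⟨c, a, b, hc0, haE, hbE, hared, hbred, hrel⟩ := exists_integral_fraction hu M hx'C hx'0
  have hmemQ : ∀ z : LaurentSeries ↥(AK A K), embK (AK A K) z ∈ modularFunctionFieldFullC ↥K M →
      coeffMap A.subtype (coeffMap (incl A K) z) ∈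
        laurentBaseChange Qbar (modularFunctionFieldFull M) := by
    intro z hz
    rw [coeffMap_subtype_incl]
    refine CoeffDescent1.coeffMap_mem_laurentBaseChange_of_algHom (algebraMap K Qbar)
      (modularFunctionFieldFull M) ?_
    rw [DegBaseChange25.laurentBaseChange_full_eq]; exact hz
  have hya := hmemQ a haE
  have hyb := hmemQ b hbE
  have hredne : ∀ (z : LaurentSeries ↥(AK A K))
      (hzE : embK (AK A K) z ∈ modularFunctionFieldFullC ↥K M)
      (hz : coeffMap A.subtype (coeffMap (incl A K) z) ∈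
        laurentBaseChange Qbar (modularFunctionFieldFull M)), redL (AK A K) z ≠ 0 →
      gaussRedN A (IsLocalRing.residue ↥A) M
        ⟨_, mem_gaussRingN_of_series A K ℓ hA M hℓM z hzE hz⟩ ≠ 0 := by
    intro z hzE hz hzred h0
    apply hzred
    have h1 := congrArg Subtype.val h0
    rw [gaussRedN_of_series A K ℓ hA M hℓM z hzE hz] at h1
    exact CoeffDescent1.coeffMap_injective_of_injective (resMap A K) (resMap_injective A K)
      (h1.trans (map_zero _).symm)
  refine ⟨algebraMap K Qbar c, ⟨_, mem_gaussRingN_of_series A K ℓ hA M hℓM a haE hya⟩,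
    ⟨_, mem_gaussRingN_of_series A K ℓ hA M hℓM b hbE hyb⟩, ?_, hredne a haE hya hared,
    hredne b hbE hyb hbred, ?_⟩
  · rw [Ne, map_eq_zero]; exact hc0
  · apply Subtype.ext
    show (f : LaurentSeries Qbar) * coeffMap A.subtype (coeffMap (incl A K) b) =
      algebraMap Qbar (LaurentSeries Qbar) (algebraMap K Qbar c) *
        coeffMap A.subtype (coeffMap (incl A K) a)
    rw [coeffMap_subtype_incl, coeffMap_subtype_incl, ← hx'f, ← map_mul, hrel, map_mul,
      GaussGen8.coeffMap_C, algebraMap_eq_C (K := Qbar)]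

end Fermat.Agent.FF.IFACE.Norm1
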