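/-
Programme FF (S19), chapter F0 IFACE — helper1.  **The fraction extension of a reduction map.**

`F` a field, `G₀ ≤ F` a subring with a ring homomorphism `red₀ : G₀ →+* Ft` into a field.  Then

  `fracRing red₀ := {y ∈ F | ∃ a b ∈ G₀, red₀ b ≠ 0 ∧ y * b = a}`

is a subring of `F` containing `G₀`, and `red₀` extends uniquely to `fracRed red₀ : fracRing →+* Ft`,
`y ↦ red₀ a / red₀ b`.  For `G₀` = the `q`-expansion Gauss ring of `ES/RED/GaussRing15` this is the
**Gauss valuation ring** of `F` (the `G` of `FF/RED/RedDatum7`).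

* `fracRed_eq`, `le_fracRing`, `fracRed_of_mem`, `exists_num_den`;
* `inv_mem_of_fracRed_ne_zero`, `fracRed_inv`: elements of nonzero reduction are units;
* `div_mem_fracRing`, `fracRed_div`.
-/
import Mathlib

set_option autoImplicit false

noncomputable section

namespace Fermat.Agent.FF.IFACE.GaussVal1

variable {F Ft : Type*} [Field F] [Field Ft] {G₀ : Subring F} (red₀ : ↥G₀ →+* Ft)

theorem coe_ne_zero_of_red_ne_zero {b : ↥G₀} (hb : red₀ b ≠ 0) : (b : F) ≠ 0 := by
  intro h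
  apply hb
  have : b = 0 := Subtype.ext h
  rw [this, map_zero]

/-- the ring of fractions `a / b`, `a, b ∈ G₀`, `red₀ b ≠ 0`. -/
def fracRing : Subring F where
  carrier := {y | ∃ a b : ↥G₀, red₀ b ≠ 0 ∧ y * (b : F) = (a : F)}
  mul_mem' := by
    rintro y y' ⟨a, b, hb, h⟩ ⟨a', b', hb', h'⟩
    refine ⟨a * a', b * b', ?_, ?_⟩
    · rw [map_mul]; exact mul_ne_zero hb hb'
    · rw [Subring.coe_mul, Subring.coe_mul, ← h, ← h']; ring
  one_mem' := ⟨1, 1, by rw [map_one]; exact one_ne_zero, by rw [one_mul]⟩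
  add_mem' := by
    rintro y y' ⟨a, b, hb, h⟩ ⟨a', b', hb', h'⟩
    refine ⟨a * b' + a' * b, b * b', ?_, ?_⟩
    · rw [map_mul]; exact mul_ne_zero hb hb'
    · rw [Subring.coe_mul, Subring.coe_add, Subring.coe_mul, Subring.coe_mul, ← h, ← h']; ring
  zero_mem' := ⟨0, 1, by rw [map_one]; exact one_ne_zero, by rw [zero_mul]; rfl⟩
  neg_mem' := by
    rintro y ⟨a, b, hb, h⟩
    exact ⟨-a, b, hb, by rw [Subring.coe_neg, ← h]; ring⟩

theorem mem_fracRing_iff (y : F) :
    y ∈ fracRing red₀ ↔ ∃ a b : ↥G₀, red₀ b ≠ 0 ∧ y * (b : F) = (a : F) := Iff.rfl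

theorem le_fracRing : G₀ ≤ fracRing red₀ := fun g hg =>
  ⟨⟨g, hg⟩, 1, by rw [map_one]; exact one_ne_zero, by rw [Subring.coe_one, mul_one]⟩

/-- independence of the representation. -/
theorem red_div_eq {y : F} {a b a' b' : ↥G₀} (hb : red₀ b ≠ 0) (hb' : red₀ b' ≠ 0)
    (h : y * (b : F) = (a : F)) (h' : y * (b' : F) = (a' : F)) :
    red₀ a / red₀ b = red₀ a' / red₀ b' := by
  have e : a * b' = a' * b := by
    apply Subtype.ext
    rw [Subring.coe_mul, Subring.coe_mul, ← h, ← h']; ring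
  have e' := congrArg red₀ e
  rw [map_mul, map_mul] at e'
  rw [div_eq_div_iff hb hb', e']

/-- the numerator of a chosen representation. -/
def num (y : ↥(fracRing red₀)) : ↥G₀ := y.2.choose

/-- the denominator of a chosen representation. -/
def den (y : ↥(fracRing red₀)) : ↥G₀ := y.2.choose_spec.choose

theorem red_den_ne_zero (y : ↥(fracRing red₀)) : red₀ (den red₀ y) ≠ 0 :=
  y.2.choose_spec.choose_spec.1

theorem mul_den (y : ↥(fracRing red₀)) : (y : F) * (den red₀ y : F) = (num red₀ y : F) :=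
  y.2.choose_spec.choose_spec.2

/-- the value of the extended reduction. -/
def fracRedFun (y : ↥(fracRing red₀)) : Ft := red₀ (num red₀ y) / red₀ (den red₀ y)

theorem fracRedFun_eq (y : ↥(fracRing red₀)) {a b : ↥G₀} (hb : red₀ b ≠ 0)
    (h : (y : F) * (b : F) = (a : F)) : fracRedFun red₀ y = red₀ a / red₀ b :=
  red_div_eq red₀ (red_den_ne_zero red₀ y) hb (mul_den red₀ y) h

/-- **the extended reduction** `fracRing →+* Ft`. -/
def fracRed : ↥(fracRing red₀) →+* Ft where
  toFun := fracRedFun red₀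
  map_one' := by
    rw [fracRedFun_eq red₀ 1 (a := 1) (b := 1) (by rw [map_one]; exact one_ne_zero)
      (by simp), map_one, div_one]
  map_mul' y y' := by
    rw [fracRedFun_eq red₀ (y * y') (a := num red₀ y * num red₀ y')
      (b := den red₀ y * den red₀ y')
      (by rw [map_mul]; exact mul_ne_zero (red_den_ne_zero red₀ y) (red_den_ne_zero red₀ y'))
      (by rw [Subring.coe_mul, Subring.coe_mul, Subring.coe_mul, ← mul_den red₀ y,
        ← mul_den red₀ y']; ring)]
    rw [map_mul, map_mul, fracRedFun, fracRedFun, div_mul_div_comm]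
  map_zero' := by
    rw [fracRedFun_eq red₀ 0 (a := 0) (b := 1) (by rw [map_one]; exact one_ne_zero)
      (by simp), map_zero, zero_div]
  map_add' y y' := by
    have hd := red_den_ne_zero red₀ y
    have hd' := red_den_ne_zero red₀ y'
    rw [fracRedFun_eq red₀ (y + y') (a := num red₀ y * den red₀ y' + num red₀ y' * den red₀ y)
      (b := den red₀ y * den red₀ y')
      (by rw [map_mul]; exact mul_ne_zero hd hd')
      (by rw [Subring.coe_add, Subring.coe_mul, Subring.coe_add, Subring.coe_mul,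
        Subring.coe_mul, ← mul_den red₀ y, ← mul_den red₀ y']; ring)]
    rw [map_add, map_mul, map_mul, map_mul, fracRedFun, fracRedFun, div_add_div _ _ hd hd',
      mul_comm (red₀ (den red₀ y)) (red₀ (num red₀ y'))]

/-- the extended reduction is computed by ANY representation. -/
theorem fracRed_eq (y : ↥(fracRing red₀)) {a b : ↥G₀} (hb : red₀ b ≠ 0)
    (h : (y : F) * (b : F) = (a : F)) : fracRed red₀ y = red₀ a / red₀ b :=
  fracRedFun_eq red₀ y hb h

theorem fracRed_mul_red (y : ↥(fracRing red₀)) {a b : ↥G₀} (hb : red₀ b ≠ 0)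
    (h : (y : F) * (b : F) = (a : F)) : fracRed red₀ y * red₀ b = red₀ a := by
  rw [fracRed_eq red₀ y hb h, div_mul_cancel₀ _ hb]

/-- on `G₀` the extended reduction is `red₀`. -/
theorem fracRed_of_mem (g : ↥G₀) : fracRed red₀ ⟨(g : F), le_fracRing red₀ g.2⟩ = red₀ g := by
  rw [fracRed_eq red₀ _ (a := g) (b := 1) (by rw [map_one]; exact one_ne_zero)
    (by rw [Subring.coe_one, mul_one]), map_one, div_one]

/-- the inclusion `G₀ →+* fracRing`. -/
def incl : ↥G₀ →+* ↥(fracRing red₀) := Subring.inclusion (le_fracRing red₀)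

@[simp] theorem coe_incl (g : ↥G₀) : ((incl red₀ g : ↥(fracRing red₀)) : F) = (g : F) := rfl

@[simp] theorem fracRed_incl (g : ↥G₀) : fracRed red₀ (incl red₀ g) = red₀ g :=
  fracRed_of_mem red₀ g

theorem exists_num_den (y : ↥(fracRing red₀)) :
    ∃ a b : ↥G₀, red₀ b ≠ 0 ∧ (y : F) * (b : F) = (a : F) ∧ fracRed red₀ y * red₀ b = red₀ a :=
  ⟨num red₀ y, den red₀ y, red_den_ne_zero red₀ y, mul_den red₀ y,
    fracRed_mul_red red₀ y (red_den_ne_zero red₀ y) (mul_den red₀ y)⟩

/-- a quotient `a / b` with `red₀ b ≠ 0` lies in the fraction ring. -/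
theorem div_mem_fracRing (a : ↥G₀) {b : ↥G₀} (hb : red₀ b ≠ 0) :
    (a : F) / (b : F) ∈ fracRing red₀ :=
  ⟨a, b, hb, div_mul_cancel₀ _ (coe_ne_zero_of_red_ne_zero red₀ hb)⟩

theorem fracRed_div (a : ↥G₀) {b : ↥G₀} (hb : red₀ b ≠ 0) :
    fracRed red₀ ⟨(a : F) / (b : F), div_mem_fracRing red₀ a hb⟩ = red₀ a / red₀ b :=
  fracRed_eq red₀ _ hb (div_mul_cancel₀ _ (coe_ne_zero_of_red_ne_zero red₀ hb))

/-- **elements of nonzero reduction are units of the fraction ring.** -/
theorem inv_mem_of_fracRed_ne_zero {y : ↥(fracRing red₀)} (hy : fracRed red₀ y ≠ 0) :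
    (y : F)⁻¹ ∈ fracRing red₀ := by
  obtain ⟨a, b, hb, h, hr⟩ := exists_num_den red₀ y
  have ha : red₀ a ≠ 0 := by
    rw [← hr]; exact mul_ne_zero hy hb
  have ha0 : (a : F) ≠ 0 := coe_ne_zero_of_red_ne_zero red₀ ha
  have hb0 : (b : F) ≠ 0 := coe_ne_zero_of_red_ne_zero red₀ hb
  have hy0 : (y : F) ≠ 0 := by
    intro h0; rw [h0, zero_mul] at h; exact ha0 h.symm
  refine ⟨b, a, ha, ?_⟩
  rw [← h]
  field_simp

theorem fracRed_inv {y : ↥(fracRing red₀)} (hy : fracRed red₀ y ≠ 0) :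
    fracRed red₀ ⟨(y : F)⁻¹, inv_mem_of_fracRed_ne_zero red₀ hy⟩ = (fracRed red₀ y)⁻¹ := by
  have hmul : (⟨(y : F)⁻¹, inv_mem_of_fracRed_ne_zero red₀ hy⟩ : ↥(fracRing red₀)) * y = 1 := by
    apply Subtype.ext
    have hy0 : (y : F) ≠ 0 := by
      intro h0
      apply hy
      have : y = 0 := Subtype.ext h0
      rw [this, map_zero]
    show (y : F)⁻¹ * (y : F) = 1
    exact inv_mul_cancel₀ hy0
  have := congrArg (fracRed red₀) hmul
  rw [map_mul, map_one] at this
  exact eq_inv_of_mul_eq_one_left this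

/-- `fracRed y = 0` iff the numerator of some (any) representation has zero reduction. -/
theorem fracRed_eq_zero_iff (y : ↥(fracRing red₀)) {a b : ↥G₀} (hb : red₀ b ≠ 0)
    (h : (y : F) * (b : F) = (a : F)) : fracRed red₀ y = 0 ↔ red₀ a = 0 := by
  rw [fracRed_eq red₀ y hb h, div_eq_zero_iff]
  exact ⟨fun h' => h'.resolve_right hb, Or.inl⟩

end Fermat.Agent.FF.IFACE.GaussVal1
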