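/-
Programme FF (S19), chapter F0 IFACE — helper1.  **From the Prelude's `IsPlaceReductionAlong` to
the fields `compat`, `r_surj`, `Hk.principal` of `FF/RED/RedDatum7.RedDatum`.**

`A ≤ L` a valuation subring, `π : A →+* k` surjective, `F = L · F₀(M)`, `F~ = k(j(q^d) : d ∣ M)`,
`G₀ := gaussRingN A π M` (the `q`-expansion Gauss ring of `ES/RED/GaussRing15`), `red₀ := gaussRedN`,
`O := fracRing red₀` the Gauss valuation ring with `red := fracRed red₀` (`GaussVal1`).

* `exists_red_fraction` : `F~ = Frac (red₀ G₀)`;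
* `compat₀`            : `IsPlaceReductionAlong` restated on `G₀`;
* `compat_frac`        : the same on the Gauss valuation ring `O` (additivity);
* `ord_eq_zero_of_not_range`, `r_surjective` : a place reduction is onto;
* `exists_divisor_red` : every nonzero `f~ ∈ F~` has a divisor, of degree `0`.
-/
import Mathlib
import Fermat.Agent.ES.RED.GaussRing15
import Fermat.Agent.FF.IFACE.GaussVal1
import Fermat.Agent.X0.FFDict
import Fermat.Agent.RED.PUR.DegBaseChange25

set_option autoImplicit false
set_option linter.unusedSectionVars false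
set_option synthInstance.maxHeartbeats 400000

noncomputable section

open AlgebraicCurve ModularCurve HahnSeries IntermediateField

namespace Fermat.Agent.FF.IFACE.RedFrac1

open Fermat.Agent.ES.RED.GaussRing15 Fermat.Agent.FF.IFACE.GaussVal1

variable {L : Type*} [Field L] [Algebra ℚ L] (A : ValuationSubring L) {k : Type*} [Field k]
  (π : ↥A →+* k) (M : ℕ) [NeZero M]


/-! ### `F~` is the fraction field of the reductions -/

/-- `z` is a quotient of reductions of elements of the Gauss ring. -/
def IsRedFrac (z : LaurentSeries k) : Prop :=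
  ∃ a b : ↥(gaussRingN A π M), gaussRedN A π M b ≠ 0 ∧
    z * ((gaussRedN A π M b : ↥(modularFunctionFieldFullC k M)) : LaurentSeries k) = ((gaussRedN A π M a : ↥(modularFunctionFieldFullC k M)) : LaurentSeries k)

variable {A π M}

theorem coe_red_ne_zero {b : ↥(gaussRingN A π M)} (hb : gaussRedN A π M b ≠ 0) :
    ((gaussRedN A π M b : ↥(modularFunctionFieldFullC k M)) : LaurentSeries k) ≠ 0 := fun h => hb (Subtype.ext h)

theorem IsRedFrac.add {z z' : LaurentSeries k} (h : IsRedFrac A π M z) (h' : IsRedFrac A π M z') :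
    IsRedFrac A π M (z + z') := by
  obtain ⟨a, b, hb, e⟩ := h
  obtain ⟨a', b', hb', e'⟩ := h'
  refine ⟨a * b' + a' * b, b * b', by rw [map_mul]; exact mul_ne_zero hb hb', ?_⟩
  rw [map_mul, map_add, map_mul, map_mul]
  show (z + z') * (((gaussRedN A π M b : ↥(modularFunctionFieldFullC k M)) : LaurentSeries k) *
      ((gaussRedN A π M b' : ↥(modularFunctionFieldFullC k M)) : LaurentSeries k)) =
    ((gaussRedN A π M a : ↥(modularFunctionFieldFullC k M)) : LaurentSeries k) * ((gaussRedN A π M b' : ↥(modularFunctionFieldFullC k M)) : LaurentSeries k) +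
      ((gaussRedN A π M a' : ↥(modularFunctionFieldFullC k M)) : LaurentSeries k) * ((gaussRedN A π M b : ↥(modularFunctionFieldFullC k M)) : LaurentSeries k)
  rw [← e, ← e']; ring

theorem IsRedFrac.mul {z z' : LaurentSeries k} (h : IsRedFrac A π M z) (h' : IsRedFrac A π M z') :
    IsRedFrac A π M (z * z') := by
  obtain ⟨a, b, hb, e⟩ := h
  obtain ⟨a', b', hb', e'⟩ := h'
  refine ⟨a * a', b * b', by rw [map_mul]; exact mul_ne_zero hb hb', ?_⟩
  rw [map_mul, map_mul]
  show (z * z') * (((gaussRedN A π M b : ↥(modularFunctionFieldFullC k M)) : LaurentSeries k) *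
      ((gaussRedN A π M b' : ↥(modularFunctionFieldFullC k M)) : LaurentSeries k)) =
    ((gaussRedN A π M a : ↥(modularFunctionFieldFullC k M)) : LaurentSeries k) * ((gaussRedN A π M a' : ↥(modularFunctionFieldFullC k M)) : LaurentSeries k)
  rw [← e, ← e']; ring

theorem isRedFrac_zero : IsRedFrac A π M (0 : LaurentSeries k) :=
  ⟨0, 1, by rw [map_one]; exact one_ne_zero, by rw [zero_mul, map_zero]; rfl⟩

theorem IsRedFrac.inv {z : LaurentSeries k} (h : IsRedFrac A π M z) : IsRedFrac A π M z⁻¹ := by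
  rcases eq_or_ne z 0 with rfl | hz
  · rw [inv_zero]; exact isRedFrac_zero
  obtain ⟨a, b, hb, e⟩ := h
  have hb' := coe_red_ne_zero hb
  have ha : gaussRedN A π M a ≠ 0 := by
    intro h0
    rw [h0] at e
    exact mul_ne_zero hz hb' e
  refine ⟨b, a, ha, ?_⟩
  rw [← e]
  field_simp

theorem isRedFrac_of_mem (g : ↥(gaussRingN A π M)) :
    IsRedFrac A π M ((gaussRedN A π M g : ↥(modularFunctionFieldFullC k M)) : LaurentSeries k) :=
  ⟨g, 1, by rw [map_one]; exact one_ne_zero, by rw [map_one]; exact mul_one _⟩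

theorem isRedFrac_algebraMap (hπ : Function.Surjective π) (c : k) :
    IsRedFrac A π M (algebraMap k (LaurentSeries k) c) := by
  obtain ⟨a, rfl⟩ := hπ c
  have := isRedFrac_of_mem (A := A) (π := π) (M := M)
    ⟨algebraMap L ↥(laurentBaseChange L (modularFunctionFieldFull M)) (a : L), algebraMap_mem_gaussRing A π _ _ a⟩
  rw [gaussRed_algebraMap] at this
  exact this

/-- the `A`-integral `q`-expansion of `j(q^d)`. -/
theorem jd_mem_gaussRing {d : ℕ} [NeZero d] (hd : d ∣ M) :
    ∃ g : ↥(gaussRingN A π M),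
      ((gaussRedN A π M g : ↥(modularFunctionFieldFullC k M)) : LaurentSeries k) = qExpand k d (jqModC k) := by
  have h1 : coeffMap A.subtype (qExpand ↥A d (jqModC ↥A)) = qExpand L d (jqModC L) := by
    rw [coeffMap_qExpand, coeffMap_jqModC]
  have h2 : coeffMap π (qExpand ↥A d (jqModC ↥A)) = qExpand k d (jqModC k) := by
    rw [coeffMap_qExpand, coeffMap_jqModC]
  have hmem : coeffMap A.subtype (qExpand ↥A d (jqModC ↥A)) ∈ (laurentBaseChange L (modularFunctionFieldFull M)) := by
    rw [h1, Fermat.Agent.RED.PUR.DegBaseChange25.laurentBaseChange_full_eq]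
    exact jqModCd_mem_full L M hd
  have hmemk : coeffMap π (qExpand ↥A d (jqModC ↥A)) ∈ (modularFunctionFieldFullC k M) := by
    rw [h2]; exact jqModCd_mem_full k M hd
  refine ⟨⟨⟨_, hmem⟩, mem_gaussRing_of_coeffMap A π _ _ _ hmem hmemk⟩, ?_⟩
  rw [gaussRed_mk A π _ _ _ hmem hmemk]
  exact h2

/-- **`F~ = Frac (red₀ G₀)`**, series form. -/
theorem isRedFrac_of_mem_fullC (hπ : Function.Surjective π) {z : LaurentSeries k}
    (hz : z ∈ (modularFunctionFieldFullC k M)) : IsRedFrac A π M z := by
  unfold modularFunctionFieldFullC at hz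
  induction hz using IntermediateField.adjoin_induction with
  | mem x hx =>
    obtain ⟨d, hne, hd, rfl⟩ := hx
    have := hne
    obtain ⟨g, hg⟩ := jd_mem_gaussRing (A := A) (π := π) (M := M) hd
    rw [← hg]
    exact isRedFrac_of_mem g
  | algebraMap c => exact isRedFrac_algebraMap hπ c
  | add x y _ _ hx hy => exact hx.add hy
  | inv x _ hx => exact hx.inv
  | mul x y _ _ hx hy => exact hx.mul hy

/-- **`F~ = Frac (red₀ G₀)`**. -/
theorem exists_red_fraction (hπ : Function.Surjective π) (z : ↥(modularFunctionFieldFullC k M)) :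
    ∃ a b : ↥(gaussRingN A π M), gaussRedN A π M b ≠ 0 ∧
      z * gaussRedN A π M b = gaussRedN A π M a := by
  obtain ⟨a, b, hb, e⟩ := isRedFrac_of_mem_fullC (A := A) (π := π) (M := M) hπ z.2
  exact ⟨a, b, hb, Subtype.ext e⟩

/-! ### compatibility -/

variable {r : Place L ↥(laurentBaseChange L (modularFunctionFieldFull M)) → Place k ↥(modularFunctionFieldFullC k M)}

/-- `IsPlaceReductionAlong`, restated on the Gauss ring. -/
theorem compat₀ (hr : IsPlaceReductionAlong A π M r) (g : ↥(gaussRingN A π M))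
    (hg : gaussRedN A π M g ≠ 0) (D : Divisor L ↥(laurentBaseChange L (modularFunctionFieldFull M))) (hD : ∀ P, D P = P.ord (g : ↥(laurentBaseChange L (modularFunctionFieldFull M))))
    (Q : Place k ↥(modularFunctionFieldFullC k M)) : Finsupp.mapDomain r D Q = Q.ord (gaussRedN A π M g) := by
  have hY := coeffMap_gaussLift A π _ _ g
  have hy : coeffMap A.subtype (gaussLift A π _ _ g) ∈ (laurentBaseChange L (modularFunctionFieldFull M)) := by
    rw [hY]; exact (g : ↥(laurentBaseChange L (modularFunctionFieldFull M))).2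
  have hyk := coeffMap_gaussLift_mem A π _ _ g
  have heq : (⟨coeffMap A.subtype (gaussLift A π _ _ g), hy⟩ : ↥(laurentBaseChange L (modularFunctionFieldFull M))) = (g : ↥(laurentBaseChange L (modularFunctionFieldFull M))) :=
    Subtype.ext hY
  have hne : coeffMap π (gaussLift A π _ _ g) ≠ 0 := by
    intro h0
    apply hg
    apply Subtype.ext
    rw [coe_gaussRed, h0]
    rfl
  have := hr.2 (gaussLift A π _ _ g) hy hyk hne D (fun P => by rw [heq]; exact hD P) Q
  rw [this]
  rfl

/-- a nonzero function has a divisor (hypothesis form of `LHyp.principal`). -/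
def HasDiv (L F : Type*) [Field L] [Field F] [Algebra L F] : Prop :=
  ∀ f : F, f ≠ 0 → ∃ D : Divisor L F, (∀ v : Place L F, D v = v.ord f) ∧ Divisor.degree D = 0

/-- **compatibility on the Gauss valuation ring**. -/
theorem compat_frac (hr : IsPlaceReductionAlong A π M r) (hdiv : HasDiv L ↥(laurentBaseChange L (modularFunctionFieldFull M)))
    (g : ↥(fracRing (gaussRedN A π M))) (hg : fracRed (gaussRedN A π M) g ≠ 0)
    (D : Divisor L ↥(laurentBaseChange L (modularFunctionFieldFull M))) (hD : ∀ P, D P = P.ord (g : ↥(laurentBaseChange L (modularFunctionFieldFull M)))) (Q : Place k ↥(modularFunctionFieldFullC k M)) :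
    Finsupp.mapDomain r D Q = Q.ord (fracRed (gaussRedN A π M) g) := by
  obtain ⟨a, b, hb, hab, hred⟩ := exists_num_den (gaussRedN A π M) g
  have ha : gaussRedN A π M a ≠ 0 := by
    rw [← hred]; exact mul_ne_zero hg hb
  have ha0 : (a : ↥(laurentBaseChange L (modularFunctionFieldFull M))) ≠ 0 := coe_ne_zero_of_red_ne_zero _ ha
  have hb0 : (b : ↥(laurentBaseChange L (modularFunctionFieldFull M))) ≠ 0 := coe_ne_zero_of_red_ne_zero _ hb
  have hg0 : (g : ↥(laurentBaseChange L (modularFunctionFieldFull M))) ≠ 0 := by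
    intro h0; rw [h0, zero_mul] at hab; exact ha0 hab.symm
  obtain ⟨Da, hDa, -⟩ := hdiv _ ha0
  obtain ⟨Db, hDb, -⟩ := hdiv _ hb0
  have hDeq : D = Da - Db := by
    ext P
    rw [Finsupp.sub_apply, hD P, hDa P, hDb P]
    have h1 := congrArg P.ord hab
    rw [P.ord_mul hg0 hb0] at h1
    omega
  have hmap : Finsupp.mapDomain r D = Finsupp.mapDomain r Da - Finsupp.mapDomain r Db := by
    rw [hDeq]
    exact map_sub (Finsupp.mapDomain.addMonoidHom r) Da Db
  rw [hmap, Finsupp.sub_apply, compat₀ hr a ha Da hDa Q, compat₀ hr b hb Db hDb Q]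
  have h2 := congrArg Q.ord hred
  rw [Q.ord_mul hg hb] at h2
  omega

/-! ### surjectivity -/

/-- the order of a reduction vanishes at a place outside the image of `r`. -/
theorem ord_eq_zero_of_not_range (hr : IsPlaceReductionAlong A π M r) (hdiv : HasDiv L ↥(laurentBaseChange L (modularFunctionFieldFull M)))
    {Q : Place k ↥(modularFunctionFieldFullC k M)} (hQ : Q ∉ Set.range r) (g : ↥(gaussRingN A π M))
    (hg : gaussRedN A π M g ≠ 0) : Q.ord (gaussRedN A π M g) = 0 := by
  obtain ⟨D, hD, -⟩ := hdiv _ (coe_ne_zero_of_red_ne_zero _ hg)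
  rw [← compat₀ hr g hg D hD Q]
  exact Finsupp.mapDomain_of_notMem_range _ _ hQ

/-- **a place reduction is surjective.** -/
theorem r_surjective (hπ : Function.Surjective π) (hr : IsPlaceReductionAlong A π M r)
    (hdiv : HasDiv L ↥(laurentBaseChange L (modularFunctionFieldFull M))) : Function.Surjective r := by
  intro Q
  by_contra hQ
  have hQ' : Q ∉ Set.range r := fun ⟨P, hP⟩ => hQ ⟨P, hP⟩
  apply Q.ne_top'
  rw [eq_top_iff]
  intro z _
  rcases eq_or_ne z 0 with rfl | hz
  · exact Q.toValuationSubring.zero_mem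
  obtain ⟨a, b, hb, e⟩ := exists_red_fraction (A := A) (π := π) (M := M) hπ z
  have ha : gaussRedN A π M a ≠ 0 := by
    rw [← e]; exact mul_ne_zero hz hb
  have h1 := congrArg Q.ord e
  rw [Q.ord_mul hz hb, ord_eq_zero_of_not_range hr hdiv hQ' a ha,
    ord_eq_zero_of_not_range hr hdiv hQ' b hb, add_zero] at h1
  exact Fermat.Agent.X0.FF.mem_of_ord_nonneg Q h1.ge

/-! ### principal divisors downstairs -/

/-- **every nonzero function of `F~` has a divisor of degree `0`.** -/
theorem exists_divisor_red (hπ : Function.Surjective π) (hr : IsPlaceReductionAlong A π M r)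
    (hdiv : HasDiv L ↥(laurentBaseChange L (modularFunctionFieldFull M))) : HasDiv k ↥(modularFunctionFieldFullC k M) := by
  intro z hz
  obtain ⟨a, b, hb, e⟩ := exists_red_fraction (A := A) (π := π) (M := M) hπ z
  have ha : gaussRedN A π M a ≠ 0 := by
    rw [← e]; exact mul_ne_zero hz hb
  obtain ⟨Da, hDa, hdega⟩ := hdiv _ (coe_ne_zero_of_red_ne_zero _ ha)
  obtain ⟨Db, hDb, hdegb⟩ := hdiv _ (coe_ne_zero_of_red_ne_zero _ hb)
  refine ⟨Finsupp.mapDomain r Da - Finsupp.mapDomain r Db, fun Q => ?_, ?_⟩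
  · rw [Finsupp.sub_apply, compat₀ hr a ha Da hDa Q, compat₀ hr b hb Db hDb Q]
    have h1 := congrArg Q.ord e
    rw [Q.ord_mul hz hb] at h1
    omega
  · rw [map_sub, degree_mapDomain_of_deg_eq hr.1, degree_mapDomain_of_deg_eq hr.1, hdega, hdegb,
      sub_zero]

end Fermat.Agent.FF.IFACE.RedFrac1
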