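/-
Programme FF (S19), chapter F0 IFACE — helper1.  **The reduction datum of `X₀(M)` at `ℓ ∤ M`.**

`FF/RED/RedDatum7.RedDatum` instantiated for `F = Fbar M = ℚbar · F₀(M)`, `A ≤ ℚbar` over `ℓ ∤ M`,
`F~ = κ_A(j(q^d) : d ∣ M)`, from a concrete two-chart model `T` of `ES/RED` (coefficientwise charts
with coordinate the Hauptmodul `t`, (PEEL-a)) — the data produced by `ES/TOP/ModelAtFinal8.modelAt`
at every level `M` with a Hauptmodul base (`4 ∣ M` or `9 ∣ M`):

* `G`   := the Gauss valuation ring `GaussVal1.fracRing (gaussRedN A (residue A) M)`,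
  `red` := `GaussVal1.fracRed …`;  `r := T.r`;
* `norm`   : `Norm1.exists_gauss_fraction`;  `sat` : `Gauss7.sat_of_norm`;
* `compat` : `RedFrac1.compat_frac` from `RedInst15.isPlaceReductionModL_main`;
* `r_surj` : `RedFrac1.r_surjective`;  `Hk` : `lHyp_red`;
* `good`   : `ChartHyp.peel` of the chart containing `P` (`good_of_chartHypA`).

Main declarations: `redDatum`, with `redDatum_A`, `redDatum_r`, `redDatum_G`, `redDatum_red` (`rfl`),
and the existence form `exists_redDatum` at every level with a Hauptmodul base.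
-/
import Mathlib
import Fermat.Agent.FF.RED.Gauss7
import Fermat.Agent.FF.IFACE.RedFrac1
import Fermat.Agent.FF.IFACE.Norm1
import Fermat.Agent.ES.RED.RedInst15
import Fermat.Agent.ES.RED.GaloisInst21
import Fermat.Agent.ES.KRON.KronInst10
import Fermat.Agent.RR.LHypGen

set_option autoImplicit false
set_option linter.unusedSectionVars false
set_option linter.style.longLine false
set_option synthInstance.maxHeartbeats 400000

noncomputable section

open AlgebraicCurve ModularCurve HahnSeries IntermediateField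

namespace Fermat.Agent.FF.IFACE.Inst1

open Fermat.Agent.ES.RED.Contract8 Fermat.Agent.ES.RED.TwoCharts8 Fermat.Agent.ES.RED.GaloisInst21
  Fermat.Agent.ES.RED.RedMain15 Fermat.Agent.ES.RED.GaussRing15
  Fermat.Agent.ES.RED.R2Adapter9 Fermat.Agent.ES.RED.R2Peel14 Fermat.Agent.ES.RED.R2Abstract14
  Fermat.Agent.X0 Fermat.Agent.X0.FF Fermat.Agent.RED.Interface4 Fermat.Agent.RED.BASE
  Fermat.Agent.FF.IFACE.GaussVal1 Fermat.Agent.FF.IFACE.RedFrac1
  Fermat.Agent.FF.RED.RedDatum7 Fermat.Agent.RR.LSpace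

/-! ### coefficientwise charts sit inside the Gauss ring -/

section Chart

variable {L : Type*} [Field L] [Algebra ℚ L] [IsAlgClosed L] {A : ValuationSubring L}
  {M : ℕ} [NeZero M]
  {x : ↥(laurentBaseChange L (modularFunctionFieldFull M))} {hx : IsGen L x}
  {S : ChartSpec A hx ↥(modularFunctionFieldFullC (kA A) M)}
  (hS : CoeffChart (F₀ := modularFunctionFieldFull M) S)

include hS in
theorem chart_le_gauss : S.B ≤ gaussRingN A (resA A) M := by
  intro b hb
  obtain ⟨Y, hY⟩ := hS.exists_series ⟨b, hb⟩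
  refine ⟨Y, hY, ?_⟩
  rw [← hS.red_eq ⟨b, hb⟩ Y hY]
  exact (S.red ⟨b, hb⟩).2

include hS in
theorem gaussRed_of_chart (b : ↥S.B) :
    gaussRedN A (resA A) M ⟨(b : ↥(laurentBaseChange L (modularFunctionFieldFull M))),
      chart_le_gauss hS b.2⟩ = S.red b := by
  obtain ⟨Y, hY⟩ := hS.exists_series b
  apply Subtype.ext
  rw [gaussRed_eq A (resA A) _ _ _ hY, hS.red_eq b Y hY]

include hS in
/-- **good uniformizers from (PEEL)**. -/
theorem good_of_chartHypA {r : Place L ↥(laurentBaseChange L (modularFunctionFieldFull M)) →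
      Place (kA A) ↥(modularFunctionFieldFullC (kA A) M)} {n : ℕ}
    (c : ChartHypA A (resA A) S.B S.red r S.B S.sB n {P | S.InChart P}
      {Q | 0 ≤ Q.ord (S.red S.sB)})
    (P : Place L ↥(laurentBaseChange L (modularFunctionFieldFull M))) (hP : S.InChart P) :
    ∃ u : ↥(fracRing (gaussRedN A (resA A) M)),
      P.ord (u : ↥(laurentBaseChange L (modularFunctionFieldFull M))) = 1 ∧
      fracRed (gaussRedN A (resA A) M) u ≠ 0 ∧
      ∀ P' : Place L ↥(laurentBaseChange L (modularFunctionFieldFull M)), r P' = r P →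
        0 ≤ P'.ord (u : ↥(laurentBaseChange L (modularFunctionFieldFull M))) ∧
        (P' ≠ P → P'.ord (u : ↥(laurentBaseChange L (modularFunctionFieldFull M))) = 0) := by
  obtain ⟨u, -, hord, hred, hother, -⟩ := c.toChartHyp.peel P hP
  refine ⟨⟨((u : ↥S.B) : ↥(laurentBaseChange L (modularFunctionFieldFull M))),
    le_fracRing _ (chart_le_gauss hS u.2)⟩, hord, ?_, ?_⟩
  · have h1 := fracRed_of_mem (gaussRedN A (resA A) M)
      ⟨((u : ↥S.B) : ↥(laurentBaseChange L (modularFunctionFieldFull M))), chart_le_gauss hS u.2⟩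
    rw [gaussRed_of_chart hS u] at h1
    rw [h1]
    exact hred
  · intro P' hP'
    have hP'S : P' ∈ {P | S.InChart P} :=
      (c.r_mem P').1 (by rw [hP']; exact (c.r_mem P).2 hP)
    exact ⟨c.ord_nonneg P' hP'S _ u.2, fun hne => hother P' hP'S hP' hne⟩

end Chart

/-! ### the instance -/

section Inst

variable {M : ℕ} [NeZero M] (n e : ℕ) [NeZero n] (ℓ : ℕ) [Fact ℓ.Prime] (hℓM : ¬ ℓ ∣ M)
  (hmem : Interface12.TMem n e M) (hgen : Interface12.TGenBase n e)
  (A : ValuationSubring Qbar) (hA : A.LiesOverPrime ℓ)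
  {x : X0.FF M} {hx : IsGen Qbar x}
  (T : TwoCharts A hx ↥(modularFunctionFieldFullC (kA A) M))
  (hS0 : CoeffChart (F₀ := modularFunctionFieldFull M) T.S0)
  (hS1 : CoeffChart (F₀ := modularFunctionFieldFull M) T.S1)
  (hs0 : T.S0.s = Interface12.tF M hmem)
  (peel0 : ∀ (P : Place Qbar (X0.FF M)) (hP : T.S0.InChart P), T.S0.PeelA P hP)
  (peel1 : ∀ (P : Place Qbar (X0.FF M)) (hP : T.S1.InChart P), T.S1.PeelA P hP)

include hx in
/-- the hypotheses of `LSpace` upstairs. -/
theorem lHyp_bar : LHyp Qbar (X0.FF M) := Fermat.Agent.RR.LHypGen.lHyp_of_isGen hx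

include hx in
theorem hasDiv_bar : HasDiv Qbar (X0.FF M) := (lHyp_bar (hx := hx)).principal

include hℓM hgen hA hS0 hS1 hs0 peel0 peel1 in
/-- the place reduction property of `T.r`. -/
theorem hr_main : IsPlaceReductionAlong A (resA A) M T.r :=
  Fermat.Agent.ES.RED.RedInst15.isPlaceReductionModL_main n e M ℓ hℓM hmem hgen A hA T hS0 hS1 hs0
    peel0 peel1

include hℓM hgen hA hS0 hS1 hs0 peel0 peel1 in
/-- the hypotheses of `LSpace` on the special fibre. -/
theorem lHyp_red : LHyp (kA A) ↥(modularFunctionFieldFullC (kA A) M) := by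
  have : IsAlgClosed (kA A) := Fermat.Agent.ES.KRON.KronInst10.isAlgClosed_residueField A
  have hin := Fermat.Agent.ES.RED.RedInst15.chartInputs_both n e M ℓ hℓM hmem hgen A hA T hS0 hS1
    hs0 peel0 peel1
  have hxt := hin.1.gent
  have hr := hr_main n e ℓ hℓM hmem hgen A hA T hS0 hS1 hs0 peel0 peel1
  have HL := lHyp_bar (hx := hx)
  exact
    { residue := fun v f hf => FF.exists_ord_sub_pos hxt v hf
      deg_eq_one := fun v => FF.deg_eq_one hxt v
      principal := exists_divisor_red IsLocalRing.residue_surjective hr HL.principal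
      nonempty := ⟨T.r (Classical.choice HL.nonempty)⟩ }

include hℓM hgen hA hS0 hS1 hs0 peel0 peel1 in
/-- good uniformizers at every place. -/
theorem good_main (P : Place Qbar (X0.FF M)) :
    ∃ u : ↥(fracRing (gaussRedN A (resA A) M)),
      P.ord (u : X0.FF M) = 1 ∧ fracRed (gaussRedN A (resA A) M) u ≠ 0 ∧
      ∀ P' : Place Qbar (X0.FF M), T.r P' = T.r P →
        0 ≤ P'.ord (u : X0.FF M) ∧ (P' ≠ P → P'.ord (u : X0.FF M) = 0) := by
  have : IsAlgClosed (kA A) := Fermat.Agent.ES.KRON.KronInst10.isAlgClosed_residueField A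
  have hin := Fermat.Agent.ES.RED.RedInst15.chartInputs_both n e M ℓ hℓM hmem hgen A hA T hS0 hS1
    hs0 peel0 peel1
  have h0 := hin.1
  have h1 := hin.2
  have := h0.sep
  have := h1.sep
  rcases T.inChart_or P with hP | hP
  · have c0 := chartHypA_of_chartSpec_self T.S0 h0.gen h0.gent T.r (hr0 T)
      (hrmem0 T h0.gent) h0.peel h0.int h0.norm h0.deg
    exact good_of_chartHypA hS0 c0 P hP
  · have c1 := chartHypA_of_chartSpec_self T.S1 h1.gen h1.gent T.r (hr1 T h0.gent)
      (hrmem1 T h0.gent) h1.peel h1.int h1.norm h1.deg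
    exact good_of_chartHypA hS1 c1 P hP

include hℓM hA in
/-- Gauss normalisation in the Gauss valuation ring. -/
theorem norm_main (y : X0.FF M) (hy : y ≠ 0) :
    ∃ c : Qbar, c ≠ 0 ∧ ∃ g : ↥(fracRing (gaussRedN A (resA A) M)),
      (g : X0.FF M) = algebraMap Qbar (X0.FF M) c * y ∧
      fracRed (gaussRedN A (resA A) M) g ≠ 0 := by
  obtain ⟨c, ya, yb, hc, hya, hyb, hrel⟩ :=
    Fermat.Agent.FF.IFACE.Norm1.exists_gauss_fraction A ℓ hA M hℓM y hy
  have hyb0 : ((yb : ↥(gaussRingN A (resA A) M)) : X0.FF M) ≠ 0 :=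
    coe_ne_zero_of_red_ne_zero _ hyb
  refine ⟨c⁻¹, inv_ne_zero hc, ⟨_, div_mem_fracRing (gaussRedN A (resA A) M) ya hyb⟩, ?_, ?_⟩
  · show ((ya : ↥(gaussRingN A (resA A) M)) : X0.FF M) / (yb : X0.FF M) = _
    rw [div_eq_iff hyb0, mul_assoc, hrel, ← mul_assoc, ← map_mul, inv_mul_cancel₀ hc, map_one,
      one_mul]
  · rw [fracRed_div (gaussRedN A (resA A) M) ya hyb]
    exact div_ne_zero hya hyb

/-- **The reduction datum of `X₀(M)` along `A`** (from a concrete two-chart model). -/
def redDatum : RedDatum Qbar (X0.FF M) (kA A) ↥(modularFunctionFieldFullC (kA A) M) where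
  A := A
  res := resA A
  res_surj := IsLocalRing.residue_surjective
  res_eq_zero_iff a := by
    rw [IsLocalRing.residue_eq_zero_iff, IsLocalRing.mem_maximalIdeal, mem_nonunits_iff]
  G := fracRing (gaussRedN A (resA A) M)
  red := fracRed (gaussRedN A (resA A) M)
  const_mem a := le_fracRing _ (algebraMap_mem_gaussRing A (resA A) _ _ a)
  red_const a := by
    have h1 := fracRed_of_mem (gaussRedN A (resA A) M)
      ⟨algebraMap Qbar (X0.FF M) (a : Qbar), algebraMap_mem_gaussRing A (resA A) _ _ a⟩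
    rw [gaussRed_algebraMap] at h1
    exact h1
  norm := norm_main ℓ hℓM A hA
  sat := Fermat.Agent.FF.RED.Gauss7.sat_of_norm A _ _
    (fun a => le_fracRing _ (algebraMap_mem_gaussRing A (resA A) _ _ a))
    (norm_main ℓ hℓM A hA)
  HL := lHyp_bar (hx := hx)
  Hk := lHyp_red n e ℓ hℓM hmem hgen A hA T hS0 hS1 hs0 peel0 peel1
  r := T.r
  r_surj := r_surjective IsLocalRing.residue_surjective
    (hr_main n e ℓ hℓM hmem hgen A hA T hS0 hS1 hs0 peel0 peel1) (hasDiv_bar (hx := hx))
  compat := compat_frac (hr_main n e ℓ hℓM hmem hgen A hA T hS0 hS1 hs0 peel0 peel1)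
    (hasDiv_bar (hx := hx))
  good := good_main n e ℓ hℓM hmem hgen A hA T hS0 hS1 hs0 peel0 peel1

@[simp] theorem redDatum_A :
    (redDatum n e ℓ hℓM hmem hgen A hA T hS0 hS1 hs0 peel0 peel1).A = A := rfl

@[simp] theorem redDatum_r :
    (redDatum n e ℓ hℓM hmem hgen A hA T hS0 hS1 hs0 peel0 peel1).r = T.r := rfl

@[simp] theorem redDatum_res :
    (redDatum n e ℓ hℓM hmem hgen A hA T hS0 hS1 hs0 peel0 peel1).res = resA A := rfl

@[simp] theorem redDatum_G :
    (redDatum n e ℓ hℓM hmem hgen A hA T hS0 hS1 hs0 peel0 peel1).G =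
      fracRing (gaussRedN A (resA A) M) := rfl

@[simp] theorem redDatum_red :
    (redDatum n e ℓ hℓM hmem hgen A hA T hS0 hS1 hs0 peel0 peel1).red =
      fracRed (gaussRedN A (resA A) M) := rfl

end Inst

end Fermat.Agent.FF.IFACE.Inst1
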