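/-
Programme FF (S19), chapter F0 IFACE — helper1.  **The decomposition group acts on the reduction
datum of `X₀(M)`**: for `g ∈ D_A` the pair `(gal A M g, galRes A M g)` is a `RedAut7.RedAut` of
`Inst1.redDatum …`.

* `smul_mem_fracRing`, `fracRed_smul` : the Gauss VALUATION ring and its reduction are `D_A`-stable /
  equivariant (generic in `L`);
* `redAut … g : RedAut (redDatum …)` with `redAut_g`, `redAut_gt` (`rfl`);
* `redAut_gt_of_mem_inertia` : for inertia elements `gt = 1`; `r_smul_of_mem_inertia`.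
-/
import Mathlib
import Fermat.Agent.FF.IFACE.Inst1
import Fermat.Agent.FF.IFACE.GalInst1
import Fermat.Agent.FF.RED.RedAut7

set_option autoImplicit false
set_option linter.unusedSectionVars false
set_option linter.style.longLine false
set_option synthInstance.maxHeartbeats 400000

noncomputable section

open AlgebraicCurve ModularCurve HahnSeries IntermediateField

namespace Fermat.Agent.FF.IFACE.GalDatum1

open Fermat.Agent.ES.RED.Contract8 Fermat.Agent.ES.RED.TwoCharts8 Fermat.Agent.ES.RED.GaloisInst21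
  Fermat.Agent.ES.RED.GaussRing15 Fermat.Agent.ES.RED.GaloisRed21
  Fermat.Agent.X0 Fermat.Agent.X0.FF Fermat.Agent.RED.Interface4 Fermat.Agent.RED.BASE
  Fermat.Agent.FF.IFACE.GaussVal1 Fermat.Agent.FF.IFACE.GalInst1 Fermat.Agent.FF.IFACE.Inst1
  Fermat.Agent.FF.RED.RedDatum7 Fermat.Agent.FF.RED.RedAut7

section Abstract

variable {F Ft : Type*} [Field F] [Field Ft] {G₀ : Subring F} (red₀ : ↥G₀ →+* Ft)
  (φ : F →+* F) (ψ : Ft →+* Ft) (hφ : ∀ g : ↥G₀, φ (g : F) ∈ G₀)
  (hred : ∀ g : ↥G₀, red₀ ⟨φ (g : F), hφ g⟩ = ψ (red₀ g))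

include hred in
/-- a ring endomorphism preserving `(G₀, red₀)` (semilinearly over `ψ`) preserves the fraction
ring. -/
theorem map_mem_fracRing {y : F} (hy : y ∈ fracRing red₀) : φ y ∈ fracRing red₀ := by
  obtain ⟨a, b, hb, h⟩ := hy
  refine ⟨⟨φ (a : F), hφ a⟩, ⟨φ (b : F), hφ b⟩, ?_, ?_⟩
  · rw [hred]
    exact fun h0 => hb ((map_eq_zero ψ).mp h0)
  · show φ y * φ (b : F) = φ (a : F)
    rw [← map_mul, h]

/-- … and commutes with the extended reduction. -/
theorem fracRed_map (y : ↥(fracRing red₀)) :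
    fracRed red₀ ⟨φ (y : F), map_mem_fracRing red₀ φ ψ hφ hred y.2⟩ = ψ (fracRed red₀ y) := by
  obtain ⟨a, b, hb, h, hr⟩ := exists_num_den red₀ y
  have hb' : red₀ ⟨φ (b : F), hφ b⟩ ≠ 0 := by
    rw [hred]
    exact fun h0 => hb ((map_eq_zero ψ).mp h0)
  have h' : φ (y : F) * ((⟨φ (b : F), hφ b⟩ : ↥G₀) : F) = ((⟨φ (a : F), hφ a⟩ : ↥G₀) : F) := by
    show φ (y : F) * φ (b : F) = φ (a : F)
    rw [← map_mul, h]
  have e1 := fracRed_mul_red red₀ ⟨φ (y : F), map_mem_fracRing red₀ φ ψ hφ hred y.2⟩ hb' h'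
  have e2 : ψ (fracRed red₀ y) * red₀ ⟨φ (b : F), hφ b⟩ = red₀ ⟨φ (a : F), hφ a⟩ := by
    rw [hred, hred, ← map_mul, hr]
  exact mul_right_cancel₀ hb' (e1.trans e2.symm)

end Abstract

section Generic

variable {L : Type*} [Field L] [Algebra ℚ L] (A : ValuationSubring L) (M : ℕ) [NeZero M]

/-- the ring endomorphism of `F` underlying `gal g`. -/
def galHom (g : A.decompositionSubgroup ℚ) :
    ↥(laurentBaseChange L (modularFunctionFieldFull M)) →+*
      ↥(laurentBaseChange L (modularFunctionFieldFull M)) :=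
  ((SemilinearAut.toRingAut (gal A M g) : _ ≃+* _) : _ →+* _)

/-- the ring endomorphism of `F~` underlying `galRes g`. -/
def galResHom (g : A.decompositionSubgroup ℚ) :
    ↥(modularFunctionFieldFullC (IsLocalRing.ResidueField ↥A) M) →+*
      ↥(modularFunctionFieldFullC (IsLocalRing.ResidueField ↥A) M) :=
  ((SemilinearAut.toRingAut (galRes A M g) : _ ≃+* _) : _ →+* _)

theorem galHom_apply (g : A.decompositionSubgroup ℚ)
    (y : ↥(laurentBaseChange L (modularFunctionFieldFull M))) :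
    galHom A M g y = gal A M g • y := rfl

theorem galResHom_apply (g : A.decompositionSubgroup ℚ)
    (z : ↥(modularFunctionFieldFullC (IsLocalRing.ResidueField ↥A) M)) :
    galResHom A M g z = galRes A M g • z := rfl

theorem galHom_mem (g : A.decompositionSubgroup ℚ)
    (a : ↥(gaussRingN A (IsLocalRing.residue ↥A) M)) :
    galHom A M g (a : ↥(laurentBaseChange L (modularFunctionFieldFull M))) ∈
      gaussRingN A (IsLocalRing.residue ↥A) M :=
  smul_mem_gaussRing A M g a.2

theorem gaussRed_galHom (g : A.decompositionSubgroup ℚ)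
    (a : ↥(gaussRingN A (IsLocalRing.residue ↥A) M)) :
    gaussRedN A (IsLocalRing.residue ↥A) M ⟨galHom A M g (a : ↥(laurentBaseChange L
      (modularFunctionFieldFull M))), galHom_mem A M g a⟩ =
      galResHom A M g (gaussRedN A (IsLocalRing.residue ↥A) M a) :=
  gaussRed_smul A M g a

/-- **the Gauss valuation ring is stable under `D_A`.** -/
theorem smul_mem_fracRing (g : A.decompositionSubgroup ℚ)
    {y : ↥(laurentBaseChange L (modularFunctionFieldFull M))}
    (hy : y ∈ fracRing (gaussRedN A (IsLocalRing.residue ↥A) M)) :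
    gal A M g • y ∈ fracRing (gaussRedN A (IsLocalRing.residue ↥A) M) :=
  map_mem_fracRing (gaussRedN A (IsLocalRing.residue ↥A) M) (galHom A M g) (galResHom A M g)
    (galHom_mem A M g) (gaussRed_galHom A M g) hy

/-- **the extended reduction is `D_A`-equivariant.** -/
theorem fracRed_smul (g : A.decompositionSubgroup ℚ)
    (y : ↥(fracRing (gaussRedN A (IsLocalRing.residue ↥A) M))) :
    fracRed (gaussRedN A (IsLocalRing.residue ↥A) M)
      ⟨gal A M g • (y : ↥(laurentBaseChange L (modularFunctionFieldFull M))),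
        smul_mem_fracRing A M g y.2⟩ =
      galRes A M g • fracRed (gaussRedN A (IsLocalRing.residue ↥A) M) y :=
  fracRed_map (gaussRedN A (IsLocalRing.residue ↥A) M) (galHom A M g) (galResHom A M g)
    (galHom_mem A M g) (gaussRed_galHom A M g) y

end Generic

section Inst

variable {M : ℕ} [NeZero M] (n e : ℕ) [NeZero n] (ℓ : ℕ) [Fact ℓ.Prime] (hℓM : ¬ ℓ ∣ M)
  (hmem : Interface12.TMem n e M) (hgen : Interface12.TGenBase n e)
  (A : ValuationSubring Qbar) (hA : A.LiesOverPrime ℓ)
  {x : X0.FF M} {hx : IsGen Qbar x}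
  (T : TwoCharts A hx ↥(modularFunctionFieldFullC (kA A) M))
  (hS0 : CoeffChart (F₀ := modularFunctionFieldFull M) T.S0)
  (hS1 : CoeffChart (F₀ := modularFunctionFieldFull M) T.S1)
  (hs0 : T.S0.s = Interface12.tF M hmem)
  (peel0 : ∀ (P : Place Qbar (X0.FF M)) (hP : T.S0.InChart P), T.S0.PeelA P hP)
  (peel1 : ∀ (P : Place Qbar (X0.FF M)) (hP : T.S1.InChart P), T.S1.PeelA P hP)

include hℓM hgen hA hS0 hS1 hs0 peel0 peel1 in
/-- `D_A`-equivariance of `T.r`, with the hypotheses of `redDatum`. -/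
theorem r_gal_main (g : A.decompositionSubgroup ℚ) (P : Place Qbar (X0.FF M)) :
    T.r (gal A M g • P) = galRes A M g • T.r P := by
  have : IsAlgClosed (kA A) := Fermat.Agent.ES.KRON.KronInst10.isAlgClosed_residueField A
  have hin := Fermat.Agent.ES.RED.RedInst15.chartInputs_both n e M ℓ hℓM hmem hgen A hA T hS0 hS1
    hs0 peel0 peel1
  exact r_gal T hin.1.gent hS0 hS1 g P

/-- **the automorphism of the reduction datum attached to `g ∈ D_A`.** -/
def redAut (g : A.decompositionSubgroup ℚ) :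
    RedAut (redDatum n e ℓ hℓM hmem hgen A hA T hS0 hS1 hs0 peel0 peel1) where
  g := gal A M g
  gt := galRes A M g
  map_A a ha := (sigmaA A g ⟨a, ha⟩).2
  res_map _ := rfl
  map_G _ hy := smul_mem_fracRing A M g hy
  red_map y := fracRed_smul A M g y
  r_map P := r_gal_main n e ℓ hℓM hmem hgen A hA T hS0 hS1 hs0 peel0 peel1 g P

@[simp] theorem redAut_g (g : A.decompositionSubgroup ℚ) :
    (redAut n e ℓ hℓM hmem hgen A hA T hS0 hS1 hs0 peel0 peel1 g).g = gal A M g := rfl

@[simp] theorem redAut_gt (g : A.decompositionSubgroup ℚ) :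
    (redAut n e ℓ hℓM hmem hgen A hA T hS0 hS1 hs0 peel0 peel1 g).gt = galRes A M g := rfl

/-- inertia elements act trivially on the special fibre. -/
theorem redAut_gt_of_mem_inertia {τ : Qbar ≃ₐ[ℚ] Qbar} (hτ : τ ∈ A.inertiaSubgroupIn ℚ) :
    ∃ h : τ ∈ A.decompositionSubgroup ℚ,
      (redAut n e ℓ hℓM hmem hgen A hA T hS0 hS1 hs0 peel0 peel1 ⟨τ, h⟩).gt = 1 :=
  galRes_of_mem_inertia A M hτ

include hℓM hgen hA hS0 hS1 hs0 peel0 peel1 in
/-- inertia elements act trivially on the set of discs. -/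
theorem r_smul_of_mem_inertia {τ : Qbar ≃ₐ[ℚ] Qbar} (hτ : τ ∈ A.inertiaSubgroupIn ℚ)
    (P : Place Qbar (X0.FF M)) :
    T.r (arithmeticGalois (modularFunctionFieldFull M) τ • P) = T.r P := by
  have : IsAlgClosed (kA A) := Fermat.Agent.ES.KRON.KronInst10.isAlgClosed_residueField A
  have hin := Fermat.Agent.ES.RED.RedInst15.chartInputs_both n e M ℓ hℓM hmem hgen A hA T hS0 hS1
    hs0 peel0 peel1
  exact r_gal_of_mem_inertia T hin.1.gent hS0 hS1 hτ P

end Inst

end Fermat.Agent.FF.IFACE.GalDatum1
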