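/-
PROGRAMME FF (S19), chapter IFACE (helper9).  `ChartCover9` = the F0 obligation of chapter NS:
a `Link9.ChartCover D (Fin 2)` FROM TWO CHARTS in the `ES/RED` form.

* `ChartData D B S St` : the part of `R2Abstract14.ChartHyp` used by (DLINK): `B ≤ G`, chart
  consistency `r P ∈ St ↔ P ∈ S`, `B` has no poles on `S`, and the order part of (PEEL);
* `ChartData.of_chartHyp` : from a `ChartHyp` over a smaller Gauss ring `(G₀, red₀)` with
  `G₀ ≤ D.G` and `D.red` extending `red₀` (e.g. `G₀ = gaussRingN`, `D.G` its fraction extension);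
* `ChartData.good` : the good uniformizers of the chart;
* `chartCover` : two charts covering all places and overlapping give `ChartCover D (Fin 2)`.
-/
import Mathlib
import Fermat.Agent.FF.NS.Link9
import Fermat.Agent.ES.RED.R2Abstract14

set_option autoImplicit false
set_option linter.unusedSectionVars false

namespace Fermat.Agent.FF.IFACE.ChartCover9

open AlgebraicCurve
open Fermat.Agent.FF.RED.RedDatum7 Fermat.Agent.FF.RED.Disc7 Fermat.Agent.FF.NS.Link9
  Fermat.Agent.ES.RED.R2Abstract14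

noncomputable section

variable {L F k Ft : Type*} [Field L] [Field F] [Algebra L F] [Field k] [Field Ft] [Algebra k Ft]
variable (D : RedDatum L F k Ft)

/-- The part of a chart (`ES/RED` `ChartHyp`) used by (DLINK). -/
structure ChartData (B : Subring F) (S : Set (Place L F)) (St : Set (Place k Ft)) : Prop where
  r_mem : ∀ P, D.r P ∈ St ↔ P ∈ S
  ord_nonneg : ∀ P ∈ S, ∀ b ∈ B, 0 ≤ P.ord b
  peel : ∀ P ∈ S, ∃ u : D.G, (u : F) ∈ B ∧ P.ord (u : F) = 1 ∧ D.red u ≠ 0 ∧
    ∀ P' ∈ S, D.r P' = D.r P → P' ≠ P → P'.ord (u : F) = 0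

variable {D}

/-- From a `ChartHyp` over a smaller Gauss ring `(G₀, red₀)`, `G₀ ≤ D.G`, `D.red` extending
`red₀`. -/
theorem ChartData.of_chartHyp {G₀ : Subring F} {red₀ : G₀ →+* Ft} (hG : G₀ ≤ D.G)
    (hred : ∀ g : G₀, D.red ⟨(g : F), hG g.2⟩ = red₀ g)
    {B : Subring F} {x : G₀} {n : ℕ} {S : Set (Place L F)} {St : Set (Place k Ft)}
    (h : ChartHyp D.A D.res G₀ red₀ D.r B x n S St) : ChartData D B S St where
  r_mem := h.r_mem
  ord_nonneg := h.ord_nonneg
  peel := by
    intro P hP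
    obtain ⟨u, huB, hu1, hured, hu0, -⟩ := h.peel P hP
    refine ⟨⟨(u : F), hG u.2⟩, huB, hu1, ?_, hu0⟩
    rw [hred u]
    exact hured

/-- the good uniformizers of a chart. -/
theorem ChartData.good {B : Subring F} {S : Set (Place L F)} {St : Set (Place k Ft)}
    (h : ChartData D B S St) (P : Place L F) (hP : D.r P ∈ St) :
    ∃ u : D.G, (u : F) ∈ B ∧ IsGoodUnif D P u := by
  have hPS : P ∈ S := (h.r_mem P).mp hP
  obtain ⟨u, huB, hu1, hured, hu0⟩ := h.peel P hPS
  refine ⟨u, huB, hu1, hured, ?_⟩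
  intro P' hP'
  have hP'S : P' ∈ S := (h.r_mem P').mp (by rw [hP']; exact hP)
  exact ⟨h.ord_nonneg P' hP'S _ huB, fun hne => hu0 P' hP'S hP' hne⟩

theorem ChartData.poleFree {B : Subring F} {S : Set (Place L F)} {St : Set (Place k Ft)}
    (h : ChartData D B S St) (b : F) (hb : b ∈ B) (Q : Place k Ft) (hQ : Q ∈ St) :
    D.PoleFree b Q := by
  intro P hP
  exact h.ord_nonneg P ((h.r_mem P).mp (by rw [hP]; exact hQ)) b hb

/-- **Two charts covering all places and overlapping give a chart cover.** -/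
def chartCover {B0 B1 : Subring F} {S0 S1 : Set (Place L F)} {St0 St1 : Set (Place k Ft)}
    (h0 : ChartData D B0 S0 St0) (h1 : ChartData D B1 S1 St1)
    (hcov : ∀ P : Place L F, P ∈ S0 ∨ P ∈ S1) (hov : ∃ P : Place L F, P ∈ S0 ∧ P ∈ S1) :
    ChartCover D (Fin 2) where
  B := ![B0, B1]
  St := ![St0, St1]
  cover := by
    intro Q
    obtain ⟨P, rfl⟩ := D.r_surj Q
    rcases hcov P with hP | hP
    · exact ⟨0, (h0.r_mem P).mpr hP⟩
    · exact ⟨1, (h1.r_mem P).mpr hP⟩
  poleFree := by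
    intro i
    fin_cases i
    · exact fun b hb Q hQ => h0.poleFree b hb Q hQ
    · exact fun b hb Q hQ => h1.poleFree b hb Q hQ
  good := by
    intro i
    fin_cases i
    · exact fun P hP => h0.good P hP
    · exact fun P hP => h1.good P hP
  overlap := by
    obtain ⟨P, hP0, hP1⟩ := hov
    have hQ0 : D.r P ∈ St0 := (h0.r_mem P).mpr hP0
    have hQ1 : D.r P ∈ St1 := (h1.r_mem P).mpr hP1
    intro i j
    fin_cases i <;> fin_cases j <;> first
      | exact ⟨D.r P, hQ0, hQ0⟩
      | exact ⟨D.r P, hQ0, hQ1⟩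
      | exact ⟨D.r P, hQ1, hQ0⟩
      | exact ⟨D.r P, hQ1, hQ1⟩

end

end Fermat.Agent.FF.IFACE.ChartCover9
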