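/-
PROGRAMME FF (S19), chapter IFACE (helper9).  `NSInst9` = THE F0 OBLIGATIONS OF CHAPTER NS FOR THE
CONCRETE REDUCTION DATUM `Inst1.redDatum` of `X₀(M)` along `A`:

* `red_surjective`  : `Function.Surjective (redDatum …).red`   (`F~ = Frac (red₀ G₀)`);
* `chartData0`, `chartData1` : the two charts (coordinate `t`, `t⁻¹`) as `ChartCover9.ChartData`;
* `exists_overlap` : a place in both charts;
* `chartCover` : `Link9.ChartCover (redDatum …) (Fin 2)`;
* `infinite_kA` : the residue field is infinite.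
-/
import Mathlib
import Fermat.Agent.FF.IFACE.Inst1
import Fermat.Agent.FF.IFACE.ChartCover9
import Fermat.Agent.FF.NS.GenPos9

set_option autoImplicit false
set_option linter.unusedSectionVars false
set_option linter.style.longLine false
set_option synthInstance.maxHeartbeats 400000

noncomputable section

open AlgebraicCurve ModularCurve HahnSeries IntermediateField

namespace Fermat.Agent.FF.IFACE.NSInst9

open Fermat.Agent.ES.RED.Contract8 Fermat.Agent.ES.RED.TwoCharts8 Fermat.Agent.ES.RED.GaloisInst21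
  Fermat.Agent.ES.RED.RedMain15 Fermat.Agent.ES.RED.GaussRing15
  Fermat.Agent.ES.RED.R2Adapter9 Fermat.Agent.ES.RED.R2Peel14 Fermat.Agent.ES.RED.R2Abstract14
  Fermat.Agent.X0 Fermat.Agent.X0.FF Fermat.Agent.RED.Interface4 Fermat.Agent.RED.BASE
  Fermat.Agent.FF.IFACE.GaussVal1 Fermat.Agent.FF.IFACE.RedFrac1 Fermat.Agent.FF.IFACE.Inst1
  Fermat.Agent.FF.IFACE.ChartCover9
  Fermat.Agent.FF.RED.RedDatum7 Fermat.Agent.RR.LSpace

variable {M : ℕ} [NeZero M] (n e : ℕ) [NeZero n] (ℓ : ℕ) [Fact ℓ.Prime] (hℓM : ¬ ℓ ∣ M)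
  (hmem : Interface12.TMem n e M) (hgen : Interface12.TGenBase n e)
  (A : ValuationSubring Qbar) (hA : A.LiesOverPrime ℓ)
  {x : X0.FF M} {hx : IsGen Qbar x}
  (T : TwoCharts A hx ↥(modularFunctionFieldFullC (kA A) M))
  (hS0 : CoeffChart (F₀ := modularFunctionFieldFull M) T.S0)
  (hS1 : CoeffChart (F₀ := modularFunctionFieldFull M) T.S1)
  (hs0 : T.S0.s = Interface12.tF M hmem)
  (peel0 : ∀ (P : Place Qbar (X0.FF M)) (hP : T.S0.InChart P), T.S0.PeelA P hP)
  (peel1 : ∀ (P : Place Qbar (X0.FF M)) (hP : T.S1.InChart P), T.S1.PeelA P hP)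

/-- the residue field of `A` is infinite (it is algebraically closed). -/
theorem infinite_kA : Infinite (kA A) := by
  haveI : IsAlgClosed (kA A) := Fermat.Agent.ES.KRON.KronInst10.isAlgClosed_residueField A
  infer_instance

/-- **the reduction map of the Gauss valuation ring is onto `F~`.** -/
theorem red_surjective :
    Function.Surjective (redDatum n e ℓ hℓM hmem hgen A hA T hS0 hS1 hs0 peel0 peel1).red := by
  intro z
  obtain ⟨a, b, hb, hab⟩ := exists_red_fraction (A := A) (π := resA A) (M := M)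
    IsLocalRing.residue_surjective z
  refine ⟨⟨_, div_mem_fracRing (gaussRedN A (resA A) M) a hb⟩, ?_⟩
  have h1 := fracRed_div (gaussRedN A (resA A) M) a hb
  show fracRed (gaussRedN A (resA A) M)
    ⟨_, div_mem_fracRing (gaussRedN A (resA A) M) a hb⟩ = z
  rw [h1, div_eq_iff hb]
  exact hab.symm

/-- chart `0` (coordinate `t`). -/
theorem chartData0 :
    ChartData (redDatum n e ℓ hℓM hmem hgen A hA T hS0 hS1 hs0 peel0 peel1) T.S0.B
      {P | T.S0.InChart P} {Q | 0 ≤ Q.ord (T.S0.red T.S0.sB)} := by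
  have : IsAlgClosed (kA A) := Fermat.Agent.ES.KRON.KronInst10.isAlgClosed_residueField A
  have hin := Fermat.Agent.ES.RED.RedInst15.chartInputs_both n e M ℓ hℓM hmem hgen A hA T hS0 hS1
    hs0 peel0 peel1
  have h0 := hin.1
  have := h0.sep
  have c0 := chartHypA_of_chartSpec_self T.S0 h0.gen h0.gent T.r (hr0 T)
    (hrmem0 T h0.gent) h0.peel h0.int h0.norm h0.deg
  refine ChartData.of_chartHyp
    (D := redDatum n e ℓ hℓM hmem hgen A hA T hS0 hS1 hs0 peel0 peel1)
    (G₀ := T.S0.B) (red₀ := T.S0.red)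
    (fun b hb => le_fracRing _ (chart_le_gauss hS0 hb)) (fun g => ?_) c0.toChartHyp
  have h1 := fracRed_of_mem (gaussRedN A (resA A) M)
    ⟨((g : ↥T.S0.B) : X0.FF M), chart_le_gauss hS0 g.2⟩
  rw [gaussRed_of_chart hS0 g] at h1
  exact h1

/-- chart `1` (coordinate `t⁻¹`). -/
theorem chartData1 :
    ChartData (redDatum n e ℓ hℓM hmem hgen A hA T hS0 hS1 hs0 peel0 peel1) T.S1.B
      {P | T.S1.InChart P} {Q | 0 ≤ Q.ord (T.S1.red T.S1.sB)} := by
  have : IsAlgClosed (kA A) := Fermat.Agent.ES.KRON.KronInst10.isAlgClosed_residueField A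
  have hin := Fermat.Agent.ES.RED.RedInst15.chartInputs_both n e M ℓ hℓM hmem hgen A hA T hS0 hS1
    hs0 peel0 peel1
  have h0 := hin.1
  have h1 := hin.2
  have := h1.sep
  have c1 := chartHypA_of_chartSpec_self T.S1 h1.gen h1.gent T.r (hr1 T h0.gent)
    (hrmem1 T h0.gent) h1.peel h1.int h1.norm h1.deg
  refine ChartData.of_chartHyp
    (D := redDatum n e ℓ hℓM hmem hgen A hA T hS0 hS1 hs0 peel0 peel1)
    (G₀ := T.S1.B) (red₀ := T.S1.red)
    (fun b hb => le_fracRing _ (chart_le_gauss hS1 hb)) (fun g => ?_) c1.toChartHyp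
  have h2 := fracRed_of_mem (gaussRedN A (resA A) M)
    ⟨((g : ↥T.S1.B) : X0.FF M), chart_le_gauss hS1 g.2⟩
  rw [gaussRed_of_chart hS1 g] at h2
  exact h2

include hℓM hgen hA hS0 hS1 hs0 peel0 peel1 in
/-- a place of the reduced curve in both charts: a zero of `t~ − 1`. -/
theorem exists_overlap_red :
    ∃ Q : Place (kA A) ↥(modularFunctionFieldFullC (kA A) M),
      Q.ord (T.S0.red T.S0.sB) = 0 ∧ Q.ord (T.S1.red T.S1.sB) = 0 := by
  have Hk := (redDatum n e ℓ hℓM hmem hgen A hA T hS0 hS1 hs0 peel0 peel1).Hk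
  set st := T.S0.red T.S0.sB with hst
  have hnc : ∀ c : kA A, st - 1 ≠ algebraMap (kA A) _ c := by
    intro c hc
    apply T.tr0
    have : st = algebraMap (kA A) _ (c + 1) := by
      rw [map_add, map_one, ← hc]; ring
    rw [← hst, this]
    exact isAlgebraic_algebraMap _
  obtain ⟨Q, hQ⟩ := Fermat.Agent.FF.NS.GenPos9.exists_ord_pos Hk hnc
  have h1 : Q.ord st = 0 := by
    have h2 : st = 1 + (st - 1) := by ring
    rw [h2, ffp_ord_add_eq_of_lt Q one_ne_zero (by rw [Q.ord_one]; exact hQ), Q.ord_one]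
  refine ⟨Q, h1, ?_⟩
  rw [T.red_s1_eq, Q.ord_inv, ← hst, h1, neg_zero]

include hℓM hgen hA hS0 hS1 hs0 peel0 peel1 in
/-- a place of the generic curve in both charts. -/
theorem exists_overlap : ∃ P : Place Qbar (X0.FF M), T.S0.InChart P ∧ T.S1.InChart P := by
  obtain ⟨Q, hQ0, hQ1⟩ := exists_overlap_red n e ℓ hℓM hmem hgen A hA T hS0 hS1 hs0 peel0 peel1
  obtain ⟨P, hP⟩ := (redDatum n e ℓ hℓM hmem hgen A hA T hS0 hS1 hs0 peel0 peel1).r_surj Q
  have c0 := chartData0 n e ℓ hℓM hmem hgen A hA T hS0 hS1 hs0 peel0 peel1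
  have c1 := chartData1 n e ℓ hℓM hmem hgen A hA T hS0 hS1 hs0 peel0 peel1
  refine ⟨P, (c0.r_mem P).mp ?_, (c1.r_mem P).mp ?_⟩
  · rw [hP]; exact hQ0.ge
  · rw [hP]; exact hQ1.ge

/-- **the chart cover of the concrete reduction datum.** -/
def chartCover :
    Fermat.Agent.FF.NS.Link9.ChartCover
      (redDatum n e ℓ hℓM hmem hgen A hA T hS0 hS1 hs0 peel0 peel1) (Fin 2) :=
  ChartCover9.chartCover
    (chartData0 n e ℓ hℓM hmem hgen A hA T hS0 hS1 hs0 peel0 peel1)
    (chartData1 n e ℓ hℓM hmem hgen A hA T hS0 hS1 hs0 peel0 peel1)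
    (fun P => T.inChart_or P)
    (exists_overlap n e ℓ hℓM hmem hgen A hA T hS0 hS1 hs0 peel0 peel1)

end Fermat.Agent.FF.IFACE.NSInst9
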