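/-
PROGRAMME FF, chapter F0 (IFACE), brick (n6)/T2 (helper8): the FINITE BAD SET of a separating
coordinate.

`F / K` a function field in one variable over an algebraically closed field `K` (any
characteristic) with a separating transcendental generator `x` (`X0.FF.IsGen K x` and `F / K(x)`
separable).  Then for all places `Q` of `F` outside a finite set, `x` is regular at `Q` and
`x - x(Q)` is a uniformizer at `Q`.

Proof: `B := integralClosure K[x] F` is a Dedekind domain, finite over the PID `A := K[x]`, and the
different ideal of `B / A` is nonzero (Mathlib), so it has finitely many prime divisors; a prime `P`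
of `B` with `P ^ 2 ∣ (x - c) B` divides the different (`pow_sub_one_dvd_differentIdeal_aux`).
The places regular at `x` are the height one primes of `B` (`X0.FFDict`).
-/
import Mathlib
import Fermat.Agent.ES.RED.SumOrdSep15

set_option autoImplicit false
set_option linter.unusedSectionVars false

open AlgebraicCurve IntermediateField Polynomial IsDedekindDomain WithZero
open scoped IntermediateField.algebraAdjoinAdjoin

noncomputable section

namespace Fermat.Agent.FF.IFACE.TameBad8

open Fermat.Agent.X0 Fermat.Agent.X0.FF Fermat.Agent.ES.RED.SumOrdSep15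

variable {K F : Type*} [Field K] [Field F] [Algebra K F] {x : F}

/-- `x - c` as an element of `K[x]`. -/
abbrev genSub (K : Type*) {F : Type*} [Field K] [Field F] [Algebra K F] (x : F) (c : K) :
    polyRing K x :=
  genA K x - algebraMap K (polyRing K x) c

theorem coe_genSub (c : K) : ((genSub K x c : polyRing K x) : F) = x - algebraMap K F c := rfl

/-- Every element of `K[x]` is congruent to a constant modulo `x - c`. -/
theorem exists_const_sub_mem (c : K) (f : polyRing K x) :
    ∃ d : K, f - algebraMap K (polyRing K x) d ∈ Ideal.span {genSub K x c} := by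
  obtain ⟨f, hf⟩ := f
  induction hf using Algebra.adjoin_induction with
  | mem y hy =>
    rw [Set.mem_singleton_iff] at hy
    subst hy
    exact ⟨c, Ideal.subset_span rfl⟩
  | algebraMap r =>
    refine ⟨r, ?_⟩
    have : (⟨algebraMap K F r, Subalgebra.algebraMap_mem _ r⟩ : polyRing K x) =
        algebraMap K (polyRing K x) r := rfl
    rw [this, sub_self]
    exact zero_mem _
  | add y z hy hz ihy ihz =>
    obtain ⟨d, hd⟩ := ihy
    obtain ⟨e, he⟩ := ihz
    refine ⟨d + e, ?_⟩
    have : (⟨y + z, add_mem hy hz⟩ : polyRing K x) - algebraMap K (polyRing K x) (d + e) =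
        ((⟨y, hy⟩ : polyRing K x) - algebraMap K (polyRing K x) d) +
          ((⟨z, hz⟩ : polyRing K x) - algebraMap K (polyRing K x) e) := by
      rw [map_add]
      ext
      push_cast
      ring
    rw [this]
    exact add_mem hd he
  | mul y z hy hz ihy ihz =>
    obtain ⟨d, hd⟩ := ihy
    obtain ⟨e, he⟩ := ihz
    refine ⟨d * e, ?_⟩
    have : (⟨y * z, mul_mem hy hz⟩ : polyRing K x) - algebraMap K (polyRing K x) (d * e) =
        ((⟨y, hy⟩ : polyRing K x) - algebraMap K (polyRing K x) d) * ⟨z, hz⟩ +
          algebraMap K (polyRing K x) d *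
            ((⟨z, hz⟩ : polyRing K x) - algebraMap K (polyRing K x) e) := by
      rw [map_mul]
      ext
      push_cast
      ring
    rw [this]
    exact add_mem (Ideal.mul_mem_right _ _ hd) (Ideal.mul_mem_left _ _ he)

/-- `(x - c)` is a maximal ideal of `K[x]` (for `x` transcendental). -/
theorem span_genSub_isMaximal (hx : Transcendental K x) (c : K) :
    (Ideal.span {genSub K x c}).IsMaximal := by
  rw [Ideal.isMaximal_iff]
  constructor
  · -- `1 ∉ (x - c)`: otherwise `x - c` is a unit of `K[x]`, hence algebraic
    intro h1
    rw [Ideal.mem_span_singleton'] at h1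
    obtain ⟨g, hg⟩ := h1
    -- use the isomorphism with `K[X]`
    let e := Polynomial.algEquivOfTranscendental K x hx
    have he : e (X - C c) = genSub K x c := by
      ext
      simp [e, genSub]
    have hunit : IsUnit (genSub K x c) := IsUnit.of_mul_eq_one g (by rw [mul_comm]; exact hg)
    rw [← he] at hunit
    have hunit' : IsUnit (X - C c : K[X]) := by
      have := hunit.map e.symm
      simpa using this
    exact Polynomial.not_isUnit_X_sub_C c hunit'
  · intro J f hJ hf hfJ
    obtain ⟨d, hd⟩ := exists_const_sub_mem c f
    have hdJ : algebraMap K (polyRing K x) d ∈ J := by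
      have := J.sub_mem hfJ (hJ hd)
      simpa using this
    have hd0 : d ≠ 0 := by
      rintro rfl
      apply hf
      simpa using hd
    have : (1 : polyRing K x) = algebraMap K (polyRing K x) d⁻¹ * algebraMap K (polyRing K x) d := by
      rw [← map_mul, inv_mul_cancel₀ hd0, map_one]
    rw [this]
    exact Ideal.mul_mem_left _ _ hdJ

theorem genSub_ne_zero (hx : Transcendental K x) (c : K) : genSub K x c ≠ 0 := by
  intro h
  apply hx
  have h1 : x - algebraMap K F c = 0 := congrArg Subtype.val h
  rw [sub_eq_zero] at h1
  rw [h1]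
  exact isAlgebraic_algebraMap c

/-- The key step: a prime `w` of `B = integralClosure K[x] F` at which `x - c` vanishes to order
`≥ 2` divides the different of `B / K[x]`. -/
theorem dvd_differentIdeal_of_two_le [IsAlgClosed K] (hx : IsGen K x)
    [Algebra.IsSeparable K⟮x⟯ F] :
    haveI := hx.finite
    haveI := isPrincipalIdealRing_polyRing hx.transcendental
    haveI := isDedekindDomain_intRing_sep hx
    haveI := isFractionRing_intRing hx
    ∀ (w : HeightOneSpectrum (intRing K x)) (c : K),
      2 ≤ (Place.ofHeightOneSpectrum (K := K) (F := F) w).ord (x - algebraMap K F c) →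
      w.asIdeal ∣ differentIdeal (polyRing K x) (intRing K x) := by
  have := hx.finite
  have hPID := isPrincipalIdealRing_polyRing hx.transcendental
  have hDedB := isDedekindDomain_intRing_sep hx
  have hFracB := isFractionRing_intRing hx
  have hFinB := finite_intRing_sep hx
  intro w c hw
  have hmax := span_genSub_isMaximal hx.transcendental c
  have hne : Ideal.span {genSub K x c} ≠ ⊥ := by
    rw [Ne, Ideal.span_singleton_eq_bot]
    exact genSub_ne_zero hx.transcendental c
  set b : intRing K x := algebraMap (polyRing K x) (intRing K x) (genSub K x c) with hb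
  have hbF : algebraMap (intRing K x) F b = x - algebraMap K F c := rfl
  have hdvd : w.asIdeal ^ 2 ∣ (Ideal.span {genSub K x c}).map
      (algebraMap (polyRing K x) (intRing K x)) := by
    rw [Ideal.map_span, Set.image_singleton, ← w.intValuation_le_pow_iff_dvd]
    have h1 := dict_ord_ofHeightOneSpectrum (K := K) (F := F) w (algebraMap (intRing K x) F b)
    rw [hbF] at h1
    have h2 : w.valuation F (algebraMap (intRing K x) F b) = w.intValuation b :=
      HeightOneSpectrum.valuation_of_algebraMap w b
    rw [hbF] at h2
    rw [← h2]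
    have h0 : w.valuation F (x - algebraMap K F c) ≠ 0 := by
      rw [Valuation.ne_zero_iff, sub_ne_zero]
      intro h
      apply hx.transcendental
      rw [h]
      exact isAlgebraic_algebraMap c
    rw [← WithZero.exp_log h0, WithZero.exp_le_exp]
    push_cast
    omega
  have := pow_sub_one_dvd_differentIdeal_aux (polyRing K x) K⟮x⟯ F (B := intRing K x)
    (p := Ideal.span {genSub K x c}) w.asIdeal (e := 2) (by norm_num) hne hdvd
  simpa using this

/-- The different of `integralClosure K[x] F` over `K[x]` is nonzero. -/
theorem differentIdeal_intRing_ne_bot (hx : IsGen K x) [Algebra.IsSeparable K⟮x⟯ F] :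
    haveI := hx.finite
    haveI := isPrincipalIdealRing_polyRing hx.transcendental
    haveI := isDedekindDomain_intRing_sep hx
    differentIdeal (polyRing K x) (intRing K x) ≠ ⊥ := by
  have := hx.finite
  have hPID := isPrincipalIdealRing_polyRing hx.transcendental
  have hDedB := isDedekindDomain_intRing_sep hx
  have hFracB := isFractionRing_intRing hx
  have hFinB := finite_intRing_sep hx
  rw [ne_eq, ← FractionalIdeal.coeIdeal_inj (K := F),
    coeIdeal_differentIdeal (polyRing K x) K⟮x⟯ F (intRing K x)]
  simp

/-- **The finite bad set of a separating coordinate.**  Outside a finite set of places, `x` is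
regular and `x - x(Q)` is a uniformizer. -/
theorem exists_finset_bad [IsAlgClosed K] (hx : IsGen K x) [Algebra.IsSeparable K⟮x⟯ F] :
    ∃ Bad : Finset (Place K F), ∀ Q : Place K F, Q ∉ Bad →
      0 ≤ Q.ord x ∧
      ∀ c : K, 0 < Q.ord (x - algebraMap K F c) → Q.ord (x - algebraMap K F c) = 1 := by
  classical
  have := hx.finite
  have hPID := isPrincipalIdealRing_polyRing hx.transcendental
  have hDedB := isDedekindDomain_intRing_sep hx
  have hFracB := isFractionRing_intRing hx
  have hFinB := finite_intRing_sep hx
  have hpoles := finite_poles_sep hx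
  have hdiff := differentIdeal_intRing_ne_bot hx
  have hfin : {w : HeightOneSpectrum (intRing K x) |
      w.asIdeal ∣ differentIdeal (polyRing K x) (intRing K x)}.Finite :=
    Ideal.finite_factors hdiff
  refine ⟨hpoles.toFinset ∪
    (hfin.toFinset.image (Place.ofHeightOneSpectrum (K := K) (F := F))), ?_⟩
  intro Q hQ
  rw [Finset.mem_union, not_or, Set.Finite.mem_toFinset, Set.mem_ofPred_eq, not_lt] at hQ
  obtain ⟨hQ1, hQ2⟩ := hQ
  refine ⟨hQ1, ?_⟩
  intro c hc
  have hxmem : x ∈ Q.toValuationSubring := mem_of_ord_nonneg Q hQ1
  obtain ⟨w, hw⟩ := exists_eq_ofHeightOneSpectrum (K := K) (F := F) (R := intRing K x) Q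
    (intRing_le_of_mem Q hxmem)
  by_contra hne
  have h2 : 2 ≤ Q.ord (x - algebraMap K F c) := by omega
  rw [hw] at h2
  have hdvd := dvd_differentIdeal_of_two_le hx w c h2
  apply hQ2
  rw [Finset.mem_image]
  exact ⟨w, by rw [Set.Finite.mem_toFinset]; exact hdvd, hw.symm⟩

/-- Variant: outside the finite bad set every place has a value `c` of `x` with `x - c` a
uniformizer. -/
theorem exists_finset_bad' [IsAlgClosed K] (hx : IsGen K x) [Algebra.IsSeparable K⟮x⟯ F] :
    ∃ Bad : Finset (Place K F), ∀ Q : Place K F, Q ∉ Bad →
      0 ≤ Q.ord x ∧ ∃ c : K, Q.ord (x - algebraMap K F c) = 1 := by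
  obtain ⟨Bad, hBad⟩ := exists_finset_bad hx
  refine ⟨Bad, fun Q hQ => ⟨(hBad Q hQ).1, ?_⟩⟩
  have hxmem : x ∈ Q.toValuationSubring := mem_of_ord_nonneg Q (hBad Q hQ).1
  obtain ⟨c, hc⟩ := exists_ord_sub_pos hx Q hxmem
  rcases hc with hc | hc
  · exfalso
    apply hx.transcendental
    rw [hc]
    exact isAlgebraic_algebraMap c
  · exact ⟨c, (hBad Q hQ).2 c hc⟩

end Fermat.Agent.FF.IFACE.TameBad8
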