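/-
PROGRAMME FF, chapter F0 (IFACE), brick (n6) (helper8): RATIONAL UNIFORMIZERS OFF A FINITE SET,
abstract over a `RedDatum`.

`D : RedDatum L F k Ft`, `k` algebraically closed, `t ∈ D.G` an integral function whose reduction
`t~ = D.red t` is a separating transcendental generator of `Ft / k`, and which has no poles on the
discs of the places where `t~` is regular (chart property).  `Fix : F → Prop` any predicate closed
under subtraction (in the application: `γ • u = u` for all `γ` in the inertia group), with `Fix t`,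
and such that every `c : k` has a lift `a ∈ A` with `Fix a` (Teichmüller lifts, `Teich8`).

Then off a finite set `Bad` of places of `Ft`, `u := t - a(Q)` (`a(Q)` a `Fix`-lift of `t~(Q)`) is an
integral function with `Fix u`, pole-free on the disc of `Q`, whose reduction `t~ - t~(Q)` is a
uniformizer at `Q` — the hypothesis `hunif` of `FF/INST/Main0.exists_approxGen`.
-/
import Mathlib
import Fermat.Agent.FF.IFACE.TameBad8
import Fermat.Agent.FF.RED.Disc7

set_option autoImplicit false
set_option linter.unusedSectionVars false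

open AlgebraicCurve IntermediateField

noncomputable section

namespace Fermat.Agent.FF.IFACE.TameUnif8

open Fermat.Agent.X0 Fermat.Agent.X0.FF Fermat.Agent.FF.RED.RedDatum7 Fermat.Agent.FF.RED.Disc7
  Fermat.Agent.FF.IFACE.TameBad8

variable {L F k Ft : Type*} [Field L] [Field F] [Algebra L F] [Field k] [Field Ft] [Algebra k Ft]

/-- **Rational uniformizers off a finite set.** -/
theorem exists_bad_unif [IsAlgClosed k] (D : RedDatum L F k Ft) (t : D.G)
    (hgen : IsGen k (D.red t)) [Algebra.IsSeparable k⟮D.red t⟯ Ft]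
    (hpf : ∀ Q : Place k Ft, 0 ≤ Q.ord (D.red t) → D.PoleFree (t : F) Q)
    (Fix : F → Prop) (hsub : ∀ a b : F, Fix a → Fix b → Fix (a - b)) (ht : Fix (t : F))
    (hteich : ∀ c : k, ∃ a : D.A, D.res a = c ∧ Fix (algebraMap L F (a : L))) :
    ∃ Bad : Finset (Place k Ft), ∀ Q : Place k Ft, Q ∉ Bad →
      ∃ u : D.G, D.PoleFree (u : F) Q ∧ Q.ord (D.red u) = 1 ∧ Fix (u : F) := by
  obtain ⟨Bad, hBad⟩ := exists_finset_bad' hgen
  refine ⟨Bad, fun Q hQ => ?_⟩
  obtain ⟨h0, c, hc⟩ := hBad Q hQ
  obtain ⟨a, ha, hafix⟩ := hteich c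
  refine ⟨t - D.const a, ?_, ?_, ?_⟩
  · have : ((t - D.const a : D.G) : F) = (t : F) - algebraMap L F (a : L) := rfl
    rw [this]
    exact poleFree_sub D (hpf Q h0) (poleFree_const D _ Q)
  · rw [map_sub, D.red_const', ha]
    exact hc
  · have : ((t - D.const a : D.G) : F) = (t : F) - algebraMap L F (a : L) := rfl
    rw [this]
    exact hsub _ _ ht hafix

end Fermat.Agent.FF.IFACE.TameUnif8
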