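/-
PROGRAMME FF, chapter F0 (IFACE), brick (n6)/T1 (helper8): TEICHMÜLLER LIFTS fixed by inertia.

`A` a valuation subring of `Qb = AlgebraicClosure ℚ` over the prime `ℓ`, `κ` its residue field.
Every `c : κ` has a lift `ĉ ∈ A` (`ĉ = 0` or a root of unity of order prime to `ℓ`) which is fixed
by the inertia group `A.inertiaSubgroupIn ℚ`.

Proof: `κ` is algebraic over `𝔽_ℓ`, so `c ≠ 0` satisfies `c ^ m = 1` with `m = ℓ ^ d - 1`; `A`
contains a primitive `m`-th root of unity, so `X ^ m - 1` splits in `A` and a lift `a` of `c`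
(with `a ^ m ≡ 1`) is congruent to one of its roots; roots of unity of order prime to `ℓ` are
fixed by inertia (`ES.P36.ZetaUnr26.inertia_fixes_rootOfUnity`).
-/
import Mathlib
import Fermat.Agent.ES.P36.ZetaUnr26
import Fermat.Agent.ES.Q58.RelQbar5

set_option autoImplicit false
set_option linter.unusedSectionVars false

noncomputable section

namespace Fermat.Agent.FF.IFACE.Teich8

open Polynomial Fermat.Agent.ES.J.CycloChar8 Fermat.Agent.ES.P36.ZetaUnr26

local notation "Qb" => AlgebraicClosure ℚ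

/-- Teichmüller lift without Hensel: if `R` contains a primitive `m`-th root of unity and `P` is
prime, every `γ` with `γ ^ m ≡ 1 mod P` is congruent mod `P` to an `m`-th root of unity. -/
theorem exists_rootOfUnity_congr {R : Type*} [CommRing R] [IsDomain R] (P : Ideal R) [P.IsPrime]
    {m : ℕ} (hm : 0 < m) {ζ : R} (hζ : IsPrimitiveRoot ζ m) {γ : R} (hγ : γ ^ m - 1 ∈ P) :
    ∃ θ : R, θ ^ m = 1 ∧ γ - θ ∈ P := by
  have h := congrArg (Polynomial.eval γ) (X_pow_sub_one_eq_prod hm hζ)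
  simp only [eval_sub, eval_pow, eval_X, eval_one, eval_prod, eval_C] at h
  rw [h, Ideal.IsPrime.prod_mem_iff] at hγ
  obtain ⟨θ, hθ, hθP⟩ := hγ
  exact ⟨θ, (mem_nthRootsFinset hm 1).mp hθ, hθP⟩

/-- In a field algebraic over `ZMod ℓ`, every nonzero element is a root of unity of order prime
to `ℓ`. -/
theorem exists_pow_eq_one_of_isAlgebraic {ℓ : ℕ} [hℓ : Fact ℓ.Prime] {κ : Type*} [Field κ]
    [Algebra (ZMod ℓ) κ] [Algebra.IsAlgebraic (ZMod ℓ) κ] {c : κ} (hc : c ≠ 0) :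
    ∃ m : ℕ, 0 < m ∧ ¬ ℓ ∣ m ∧ c ^ m = 1 := by
  classical
  have hint : IsIntegral (ZMod ℓ) c := (Algebra.IsAlgebraic.isAlgebraic c).isIntegral
  let E := IntermediateField.adjoin (ZMod ℓ) {c}
  have hfd : FiniteDimensional (ZMod ℓ) E := IntermediateField.adjoin.finiteDimensional hint
  have hfin : Finite E := Module.finite_of_finite (ZMod ℓ)
  have := Fintype.ofFinite E
  let c' : E := ⟨c, IntermediateField.mem_adjoin_simple_self _ c⟩
  have hc' : c' ≠ 0 := fun h => hc (congrArg Subtype.val h)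
  have h1 : c' ^ (Fintype.card E - 1) = 1 := FiniteField.pow_card_sub_one_eq_one c' hc'
  have hcharE : CharP E ℓ := charP_of_injective_algebraMap (algebraMap (ZMod ℓ) E).injective ℓ
  obtain ⟨n, hn⟩ := FiniteField.card E ℓ
  have hcard : Fintype.card E = ℓ ^ (n : ℕ) := hn.2
  have hpos : 1 < ℓ ^ (n : ℕ) := Nat.one_lt_pow n.ne_zero hℓ.out.one_lt
  refine ⟨Fintype.card E - 1, by omega, ?_, ?_⟩
  · rw [hcard]
    intro hdvd
    have h2 : ℓ ∣ ℓ ^ (n : ℕ) := dvd_pow_self ℓ n.ne_zero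
    have h3 : ℓ ∣ ℓ ^ (n : ℕ) - (ℓ ^ (n : ℕ) - 1) := Nat.dvd_sub h2 hdvd
    have h4 : ℓ ^ (n : ℕ) - (ℓ ^ (n : ℕ) - 1) = 1 := by omega
    rw [h4] at h3
    exact hℓ.out.one_lt.ne' (Nat.dvd_one.mp h3)
  · have := congrArg (Subtype.val : E → κ) h1
    simpa [c'] using this

variable {A : ValuationSubring Qb} {ℓ : ℕ}

/-- **Teichmüller lifts fixed by inertia.** -/
theorem exists_teichmuller (hℓ : ℓ.Prime) (hA : A.LiesOverPrime ℓ)
    (c : IsLocalRing.ResidueField A) :
    ∃ a : A, IsLocalRing.residue A a = c ∧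
      ∀ τ ∈ A.inertiaSubgroupIn ℚ, τ (a : Qb) = (a : Qb) := by
  classical
  have : Fact ℓ.Prime := ⟨hℓ⟩
  rcases eq_or_ne c 0 with rfl | hc
  · exact ⟨0, map_zero _, fun τ _ => by simp⟩
  -- the residue field has characteristic `ℓ`
  have hchar : CharP (IsLocalRing.ResidueField A) ℓ := by
    rw [CharP.charP_iff_prime_eq_zero hℓ]
    have h1 : ((ℓ : ℕ) : A) ∈ IsLocalRing.maximalIdeal A := by
      rw [← ValuationSubring.coe_mem_nonunits_iff]
      have h2 : (ℓ : Qb) ∈ A.nonunits := hA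
      simpa using h2
    have := (IsLocalRing.residue_eq_zero_iff _).mpr h1
    simpa using this
  let _ : Algebra (ZMod ℓ) (IsLocalRing.ResidueField A) := ZMod.algebra _ ℓ
  have halg : Algebra.IsAlgebraic (ZMod ℓ) (IsLocalRing.ResidueField A) :=
    Fermat.Agent.ES.Q58.RelQbar5.isAlgebraic_residueField A
  obtain ⟨m, hm0, hℓm, hcm⟩ := exists_pow_eq_one_of_isAlgebraic (ℓ := ℓ) hc
  -- a primitive `m`-th root of unity in `A`
  have hm0' : m ≠ 0 := hm0.ne'
  have : NeZero (m : Qb) := ⟨by exact_mod_cast hm0'⟩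
  obtain ⟨ζ, hζ⟩ := HasEnoughRootsOfUnity.exists_primitiveRoot Qb m
  have hζA : ζ ∈ A := mem_of_pow_eq_one hm0' hζ.pow_eq_one
  have hζ' : IsPrimitiveRoot (⟨ζ, hζA⟩ : A) m :=
    IsPrimitiveRoot.of_map_of_injective (f := A.subtype) (by simpa using hζ)
      Subtype.val_injective
  obtain ⟨a, rfl⟩ := IsLocalRing.residue_surjective c
  have hmem : a ^ m - 1 ∈ IsLocalRing.maximalIdeal A := by
    rw [← IsLocalRing.residue_eq_zero_iff, map_sub, map_pow, hcm, map_one, sub_self]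
  obtain ⟨θ, hθ, hθa⟩ := exists_rootOfUnity_congr (IsLocalRing.maximalIdeal A) hm0 hζ' hmem
  refine ⟨θ, ?_, ?_⟩
  · rw [← IsLocalRing.residue_eq_zero_iff, map_sub, sub_eq_zero] at hθa
    exact hθa.symm
  · intro τ hτ
    have hθ' : (θ : Qb) ^ m = 1 := by
      have := congrArg (Subtype.val : A → Qb) hθ
      simpa using this
    exact inertia_fixes_rootOfUnity hℓ hA hℓm hθ' hτ

end Fermat.Agent.FF.IFACE.Teich8
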