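/-
PROGRAMME FF, chapter F0 (IFACE), brick (n6) (helper8): RATIONAL UNIFORMIZERS for the concrete
reduction datum `Inst1.redDatum …` of `X₀(M)` at `ℓ ∤ M`.

`hunif_redDatum` : off a finite set `Bad` of places of the special fibre, `u := t − ĉ` (`t` the
Hauptmodul coordinate of chart 0, `ĉ` the Teichmüller lift of `t~(Q)`) is an element of the Gauss
valuation ring, pole-free on the disc of `Q`, with reduction `t~ − t~(Q)` a uniformizer at `Q`, and
fixed by the inertia group of `A` — the hypothesis `hunif` of `FF/INST/Main0.exists_approxGen` /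
`FF/FINAL/Final1.torsFlat_of_redDatum'`.

Inputs: `TameUnif8.exists_bad_unif` (abstract), `TameBad8` (finite bad set via the different),
`Teich8.exists_teichmuller`, `ChartInputs.gent/sep` (the reduced coordinate is a separating
generator), `CoeffChart.smul_s` (the coordinate is Galois-fixed).
-/
import Mathlib
import Fermat.Agent.FF.IFACE.Inst1
import Fermat.Agent.FF.IFACE.Teich8
import Fermat.Agent.FF.IFACE.TameUnif8

set_option autoImplicit false
set_option linter.unusedSectionVars false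
set_option linter.style.longLine false
set_option synthInstance.maxHeartbeats 400000

noncomputable section

open AlgebraicCurve ModularCurve HahnSeries IntermediateField

namespace Fermat.Agent.FF.IFACE.TameInst8

open Fermat.Agent.ES.RED.Contract8 Fermat.Agent.ES.RED.TwoCharts8 Fermat.Agent.ES.RED.GaloisInst21
  Fermat.Agent.ES.RED.RedMain15 Fermat.Agent.ES.RED.GaussRing15
  Fermat.Agent.ES.RED.R2Adapter9 Fermat.Agent.ES.RED.R2Peel14 Fermat.Agent.ES.RED.R2Abstract14
  Fermat.Agent.X0 Fermat.Agent.X0.FF Fermat.Agent.RED.Interface4 Fermat.Agent.RED.BASE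
  Fermat.Agent.FF.IFACE.GaussVal1 Fermat.Agent.FF.IFACE.RedFrac1 Fermat.Agent.FF.IFACE.Inst1
  Fermat.Agent.FF.RED.RedDatum7 Fermat.Agent.RR.LSpace

variable {M : ℕ} [NeZero M] (n e : ℕ) [NeZero n] (ℓ : ℕ) [Fact ℓ.Prime] (hℓM : ¬ ℓ ∣ M)
  (hmem : Interface12.TMem n e M) (hgen : Interface12.TGenBase n e)
  (A : ValuationSubring Qbar) (hA : A.LiesOverPrime ℓ)
  {x : X0.FF M} {hx : IsGen Qbar x}
  (T : TwoCharts A hx ↥(modularFunctionFieldFullC (kA A) M))
  (hS0 : CoeffChart (F₀ := modularFunctionFieldFull M) T.S0)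
  (hS1 : CoeffChart (F₀ := modularFunctionFieldFull M) T.S1)
  (hs0 : T.S0.s = Interface12.tF M hmem)
  (peel0 : ∀ (P : Place Qbar (X0.FF M)) (hP : T.S0.InChart P), T.S0.PeelA P hP)
  (peel1 : ∀ (P : Place Qbar (X0.FF M)) (hP : T.S1.InChart P), T.S1.PeelA P hP)

/-- **(n6)** rational uniformizers off a finite set, for the concrete reduction datum. -/
theorem hunif_redDatum :
    ∃ Bad : Finset (Place (kA A) ↥(modularFunctionFieldFullC (kA A) M)),
      ∀ Q : Place (kA A) ↥(modularFunctionFieldFullC (kA A) M), Q ∉ Bad →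
        ∃ u : (redDatum n e ℓ hℓM hmem hgen A hA T hS0 hS1 hs0 peel0 peel1).G,
          (redDatum n e ℓ hℓM hmem hgen A hA T hS0 hS1 hs0 peel0 peel1).PoleFree (u : X0.FF M) Q ∧
          Q.ord ((redDatum n e ℓ hℓM hmem hgen A hA T hS0 hS1 hs0 peel0 peel1).red u) = 1 ∧
          ∀ γ ∈ A.inertiaSubgroupIn ℚ,
            arithmeticGalois (modularFunctionFieldFull M) γ • (u : X0.FF M) = (u : X0.FF M) := by
  have hcl : IsAlgClosed (kA A) := Fermat.Agent.ES.KRON.KronInst10.isAlgClosed_residueField A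
  have hin := Fermat.Agent.ES.RED.RedInst15.chartInputs_both n e M ℓ hℓM hmem hgen A hA T hS0 hS1
    hs0 peel0 peel1
  have h0 := hin.1
  have hsep := h0.sep
  have c0 := chartHypA_of_chartSpec_self T.S0 h0.gen h0.gent T.r (hr0 T)
    (hrmem0 T h0.gent) h0.peel h0.int h0.norm h0.deg
  set D := redDatum n e ℓ hℓM hmem hgen A hA T hS0 hS1 hs0 peel0 peel1 with hD
  -- the coordinate as an element of the Gauss valuation ring
  let t : D.G := ⟨T.S0.s, le_fracRing _ (chart_le_gauss hS0 T.S0.sB.2)⟩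
  have hredt : D.red t = T.S0.red T.S0.sB := by
    have h1 := fracRed_of_mem (gaussRedN A (resA A) M)
      ⟨((T.S0.sB : ↥T.S0.B) : X0.FF M), chart_le_gauss hS0 T.S0.sB.2⟩
    rw [gaussRed_of_chart hS0 T.S0.sB] at h1
    exact h1
  have hgent : IsGen (kA A) (D.red t) := by rw [hredt]; exact h0.gent
  have hsep' : Algebra.IsSeparable (kA A)⟮D.red t⟯ ↥(modularFunctionFieldFullC (kA A) M) := by
    rw [hredt]; exact hsep
  refine Fermat.Agent.FF.IFACE.TameUnif8.exists_bad_unif D t hgent ?_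
    (fun u => ∀ γ ∈ A.inertiaSubgroupIn ℚ,
      arithmeticGalois (modularFunctionFieldFull M) γ • u = u) ?_ ?_ ?_
  · -- chart 0 pole-freeness
    intro Q hQ P hP
    have hQ' : T.r P ∈ {Q | 0 ≤ Q.ord (T.S0.red T.S0.sB)} := by
      show 0 ≤ (T.r P).ord (T.S0.red T.S0.sB)
      rw [← hredt]
      have : D.r P = Q := hP
      rw [show T.r P = D.r P from rfl, this]
      exact hQ
    have hPS := (c0.r_mem P).1 hQ'
    exact c0.ord_nonneg P hPS _ T.S0.sB.2
  · intro a b ha hb γ hγ
    rw [smul_sub, ha γ hγ, hb γ hγ]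
  · intro γ _
    exact hS0.smul_s γ
  · intro c
    obtain ⟨a, ha, hfix⟩ := Fermat.Agent.FF.IFACE.Teich8.exists_teichmuller (Fact.out) hA c
    refine ⟨a, ha, ?_⟩
    intro γ hγ
    rw [SemilinearAut.smul_algebraMap]
    congr 1
    exact hfix γ hγ

end Fermat.Agent.FF.IFACE.TameInst8
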