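/-
Programme FF (S19), chapter F0 IFACE (helper7): **the remaining obligations of the concrete
reduction datum** `Inst1.redDatum …` consumed by `INST/Main1.exists_approxGen_main`:

* `red_surjective`  : `Function.Surjective (redDatum …).red`  (`F~ = Frac (red₀ G₀)`);
* `chartData0/1`    : the two charts of the model as `ChartCover9.ChartData`;
* `exists_overlap`  : a place in both charts (a zero of `t~ − 1`);
* `chartCover`      : `Link9.ChartCover (redDatum …) (Fin 2)`.
-/
import Mathlib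
import Fermat.Agent.FF.IFACE.Inst1
import Fermat.Agent.FF.IFACE.ChartCover9
import Fermat.Agent.FF.NS.GenPos9

set_option autoImplicit false
set_option linter.unusedSectionVars false
set_option linter.style.longLine false
set_option synthInstance.maxHeartbeats 400000

noncomputable section

open AlgebraicCurve ModularCurve HahnSeries IntermediateField

namespace Fermat.Agent.FF.IFACE.Oblig7

open Fermat.Agent.ES.RED.Contract8 Fermat.Agent.ES.RED.TwoCharts8 Fermat.Agent.ES.RED.GaloisInst21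
  Fermat.Agent.ES.RED.RedMain15 Fermat.Agent.ES.RED.GaussRing15
  Fermat.Agent.ES.RED.R2Adapter9 Fermat.Agent.ES.RED.R2Peel14 Fermat.Agent.ES.RED.R2Abstract14
  Fermat.Agent.X0 Fermat.Agent.X0.FF Fermat.Agent.RED.Interface4 Fermat.Agent.RED.BASE
  Fermat.Agent.FF.IFACE.GaussVal1 Fermat.Agent.FF.IFACE.RedFrac1 Fermat.Agent.FF.IFACE.Inst1
  Fermat.Agent.FF.RED.RedDatum7 Fermat.Agent.RR.LSpace Fermat.Agent.FF.IFACE.ChartCover9

variable {M : ℕ} [NeZero M] (n e : ℕ) [NeZero n] (ℓ : ℕ) [Fact ℓ.Prime] (hℓM : ¬ ℓ ∣ M)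
  (hmem : Interface12.TMem n e M) (hgen : Interface12.TGenBase n e)
  (A : ValuationSubring Qbar) (hA : A.LiesOverPrime ℓ)
  {x : X0.FF M} {hx : IsGen Qbar x}
  (T : TwoCharts A hx ↥(modularFunctionFieldFullC (kA A) M))
  (hS0 : CoeffChart (F₀ := modularFunctionFieldFull M) T.S0)
  (hS1 : CoeffChart (F₀ := modularFunctionFieldFull M) T.S1)
  (hs0 : T.S0.s = Interface12.tF M hmem)
  (peel0 : ∀ (P : Place Qbar (X0.FF M)) (hP : T.S0.InChart P), T.S0.PeelA P hP)
  (peel1 : ∀ (P : Place Qbar (X0.FF M)) (hP : T.S1.InChart P), T.S1.PeelA P hP)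

/-- **the reduction map of the concrete datum is surjective** (`F~ = Frac (red₀ G₀)`). -/
theorem red_surjective :
    Function.Surjective (redDatum n e ℓ hℓM hmem hgen A hA T hS0 hS1 hs0 peel0 peel1).red := by
  intro z
  obtain ⟨a, b, hb, hz⟩ := exists_red_fraction (A := A) (π := resA A) (M := M)
    IsLocalRing.residue_surjective z
  refine ⟨⟨_, div_mem_fracRing (gaussRedN A (resA A) M) a hb⟩, ?_⟩
  refine (fracRed_div (gaussRedN A (resA A) M) a hb).trans ?_
  rw [← hz, mul_div_cancel_right₀ _ hb]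

section Chart

variable {S : ChartSpec A hx ↥(modularFunctionFieldFullC (kA A) M)}
  (hS : CoeffChart (F₀ := modularFunctionFieldFull M) S)

include hS in
/-- a chart of the model, in the form consumed by `ChartCover9`. -/
theorem chartData_of_chartHypA {n' : ℕ}
    (c : ChartHypA A (resA A) S.B S.red T.r S.B S.sB n' {P | S.InChart P}
      {Q | 0 ≤ Q.ord (S.red S.sB)}) :
    ChartData (redDatum n e ℓ hℓM hmem hgen A hA T hS0 hS1 hs0 peel0 peel1) S.B
      {P | S.InChart P} {Q | 0 ≤ Q.ord (S.red S.sB)} := by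
  refine ChartData.of_chartHyp (D := redDatum n e ℓ hℓM hmem hgen A hA T hS0 hS1 hs0 peel0 peel1)
    (G₀ := S.B) (red₀ := S.red)
    (fun b hb => le_fracRing _ (chart_le_gauss hS hb)) ?_ c.toChartHyp
  intro g
  show fracRed (gaussRedN A (resA A) M) _ = S.red g
  have h1 := fracRed_of_mem (gaussRedN A (resA A) M)
    ⟨((g : ↥S.B) : X0.FF M), chart_le_gauss hS g.2⟩
  rw [gaussRed_of_chart hS g] at h1
  exact h1

end Chart

include hℓM hgen hA hS0 hS1 hs0 peel0 peel1 in
/-- the chart `S0` (coordinate `t`). -/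
theorem chartData0 :
    ChartData (redDatum n e ℓ hℓM hmem hgen A hA T hS0 hS1 hs0 peel0 peel1) T.S0.B
      {P | T.S0.InChart P} {Q | 0 ≤ Q.ord (T.S0.red T.S0.sB)} := by
  have : IsAlgClosed (kA A) := Fermat.Agent.ES.KRON.KronInst10.isAlgClosed_residueField A
  have hin := Fermat.Agent.ES.RED.RedInst15.chartInputs_both n e M ℓ hℓM hmem hgen A hA T hS0 hS1
    hs0 peel0 peel1
  have h0 := hin.1
  have := h0.sep
  have c0 := chartHypA_of_chartSpec_self T.S0 h0.gen h0.gent T.r (hr0 T)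
    (hrmem0 T h0.gent) h0.peel h0.int h0.norm h0.deg
  exact chartData_of_chartHypA n e ℓ hℓM hmem hgen A hA T hS0 hS1 hs0 peel0 peel1 hS0 c0

include hℓM hgen hA hS0 hS1 hs0 peel0 peel1 in
/-- the chart `S1` (coordinate `t⁻¹`). -/
theorem chartData1 :
    ChartData (redDatum n e ℓ hℓM hmem hgen A hA T hS0 hS1 hs0 peel0 peel1) T.S1.B
      {P | T.S1.InChart P} {Q | 0 ≤ Q.ord (T.S1.red T.S1.sB)} := by
  have : IsAlgClosed (kA A) := Fermat.Agent.ES.KRON.KronInst10.isAlgClosed_residueField A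
  have hin := Fermat.Agent.ES.RED.RedInst15.chartInputs_both n e M ℓ hℓM hmem hgen A hA T hS0 hS1
    hs0 peel0 peel1
  have h0 := hin.1
  have h1 := hin.2
  have := h1.sep
  have c1 := chartHypA_of_chartSpec_self T.S1 h1.gen h1.gent T.r (hr1 T h0.gent)
    (hrmem1 T h0.gent) h1.peel h1.int h1.norm h1.deg
  exact chartData_of_chartHypA n e ℓ hℓM hmem hgen A hA T hS0 hS1 hs0 peel0 peel1 hS1 c1

include hℓM hgen hA hS0 hS1 hs0 peel0 peel1 in
/-- the two charts overlap: a zero of `t~ − 1` lifts to a place in both charts. -/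
theorem exists_overlap :
    ∃ P : Place Qbar (X0.FF M), P ∈ {P | T.S0.InChart P} ∧ P ∈ {P | T.S1.InChart P} := by
  have d0 := chartData0 n e ℓ hℓM hmem hgen A hA T hS0 hS1 hs0 peel0 peel1
  have d1 := chartData1 n e ℓ hℓM hmem hgen A hA T hS0 hS1 hs0 peel0 peel1
  set D := redDatum n e ℓ hℓM hmem hgen A hA T hS0 hS1 hs0 peel0 peel1 with hD
  set t := T.S0.red T.S0.sB with ht
  -- `t − 1` is not constant, hence has a zero
  have hnc : ∀ c : kA A, t - 1 ≠ algebraMap (kA A) ↥(modularFunctionFieldFullC (kA A) M) c := by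
    intro c hc
    apply T.tr0
    have h1 : t = algebraMap (kA A) ↥(modularFunctionFieldFullC (kA A) M) (c + 1) := by
      rw [map_add, map_one, ← hc, sub_add_cancel]
    rw [← ht, h1]
    exact isAlgebraic_algebraMap _
  obtain ⟨Q, hQ⟩ := Fermat.Agent.FF.NS.GenPos9.exists_ord_pos D.Hk hnc
  -- `ord_Q t = 0`
  have ht0 : Q.ord t = 0 := by
    have h1 : Q.ord (1 : ↥(modularFunctionFieldFullC (kA A) M)) = 0 := Q.ord_one
    have h2 : t = (t - 1) + 1 := by ring
    have h3 := Fermat.Agent.X0.FF.ord_add_eq_of_lt Q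
      (f := (1 : ↥(modularFunctionFieldFullC (kA A) M))) (g := t - 1) one_ne_zero
      (by rw [h1]; exact hQ)
    rw [h2, add_comm, h3, h1]
  obtain ⟨P, hP⟩ := D.r_surj Q
  refine ⟨P, (d0.r_mem P).mp ?_, (d1.r_mem P).mp ?_⟩
  · show 0 ≤ (D.r P).ord t
    rw [hP, ht0]
  · show 0 ≤ (D.r P).ord (T.S1.red T.S1.sB)
    rw [hP, T.red_s1_eq, Q.ord_inv, ← ht, ht0, neg_zero]

/-- **the chart cover of the concrete reduction datum.** -/
def chartCover :
    Fermat.Agent.FF.NS.Link9.ChartCover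
      (redDatum n e ℓ hℓM hmem hgen A hA T hS0 hS1 hs0 peel0 peel1) (Fin 2) :=
  ChartCover9.chartCover
    (chartData0 n e ℓ hℓM hmem hgen A hA T hS0 hS1 hs0 peel0 peel1)
    (chartData1 n e ℓ hℓM hmem hgen A hA T hS0 hS1 hs0 peel0 peel1)
    T.inChart_or
    (exists_overlap n e ℓ hℓM hmem hgen A hA T hS0 hS1 hs0 peel0 peel1)

end Fermat.Agent.FF.IFACE.Oblig7
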