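/-
Programme FF (S19), chapter F0 IFACE — helper1.  **Finiteness of ramification** for a separable
extension of Dedekind domains, in the language of places (any characteristic).

* `ord_le_one_of_not_dvd_different` : `A ⊆ B` Dedekind, `B` finite over `A`, separable fraction
  fields, `(a) ⊂ A` maximal; at the place of a height-one prime `w` of `B` NOT dividing the
  different, `ord_w a ≤ 1`   (`Mathlib`: `pow_sub_one_dvd_differentIdeal`);
* `finite_ramified_sep` : `F / K` a function field with separating generator `x` (`K` algebraically
  closed): there is a FINITE set `Bad` of places such that `ord_v (x - c) ≤ 1` for every `c : K` and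
  every place `v ∉ Bad` with `0 ≤ ord_v x`.
-/
import Mathlib
import Fermat.Agent.ES.RED.SumOrdSep15

set_option autoImplicit false
set_option linter.unusedSectionVars false

open AlgebraicCurve IntermediateField Polynomial IsDedekindDomain WithZero
open scoped IntermediateField.algebraAdjoinAdjoin

noncomputable section

namespace Fermat.Agent.FF.IFACE.Ramif1

open Fermat.Agent.X0 Fermat.Agent.X0.FF Fermat.Agent.ES.RED.SumOrdSep15

attribute [local instance] FractionRing.liftAlgebra FractionRing.isScalarTower_liftAlgebra

/-- **Unramified outside the different**, place form. -/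
theorem ord_le_one_of_not_dvd_different {K F A B : Type*} [Field K] [Field F] [Algebra K F]
    [CommRing A] [IsDedekindDomain A] [CommRing B] [IsDedekindDomain B] [Algebra A B]
    [Module.Finite A B] [Module.IsTorsionFree A B]
    [Algebra.IsSeparable (FractionRing A) (FractionRing B)]
    [Algebra B F] [IsFractionRing B F] [Algebra K B] [IsScalarTower K B F]
    (a : A) (ha : a ≠ 0) (hmax : (Ideal.span {a}).IsMaximal)
    (w : HeightOneSpectrum B) (hw : ¬ w.asIdeal ∣ differentIdeal A B) :
    (Place.ofHeightOneSpectrum (K := K) w).ord (algebraMap B F (algebraMap A B a)) ≤ 1 := by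
  classical
  set p : Ideal A := Ideal.span {a} with hp
  have hp0 : p ≠ ⊥ := by rw [hp, Ne, Ideal.span_singleton_eq_bot]; exact ha
  set xB : B := algebraMap A B a with hxB
  have hxB0 : xB ≠ 0 := by
    rw [hxB, Ne, FaithfulSMul.algebraMap_eq_zero_iff]; exact ha
  have hpmap : p.map (algebraMap A B) = Ideal.span {xB} := by
    rw [hp, Ideal.map_span, Set.image_singleton]
  have h2 : w.valuation F (algebraMap B F xB) =
      exp (-(multiplicity w.asIdeal (Ideal.span {xB}) : ℤ)) := by
    have h3 : w.valuation F (algebraMap B F xB) = _ :=
      HeightOneSpectrum.valuation_of_algebraMap w xB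
    rw [w.intValuation_eq_exp_neg_multiplicity hxB0] at h3
    exact h3
  rw [dict_ord_ofHeightOneSpectrum, h2, log_exp, neg_neg]
  by_contra hlt
  push Not at hlt
  have h2le : 2 ≤ multiplicity w.asIdeal (Ideal.span {xB}) := by exact_mod_cast hlt
  have hdvd : w.asIdeal ^ 2 ∣ p.map (algebraMap A B) := by
    rw [hpmap]; exact pow_dvd_of_le_multiplicity h2le
  have : p.IsMaximal := hmax
  have := pow_sub_one_dvd_differentIdeal (A := A) w.asIdeal 2 hp0 hdvd
  rw [show 2 - 1 = 1 from rfl, pow_one] at this
  exact hw this

/-- transfer of separability to the canonical fraction fields. -/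
theorem isSeparable_fractionRing {A B K' F : Type*} [CommRing A] [IsDomain A] [CommRing B]
    [IsDomain B] [Algebra A B] [Module.IsTorsionFree A B] [Field K'] [Field F]
    [Algebra A K'] [IsFractionRing A K'] [Algebra B F] [IsFractionRing B F] [Algebra K' F]
    [Algebra A F] [IsScalarTower A K' F] [IsScalarTower A B F] [Algebra.IsSeparable K' F] :
    Algebra.IsSeparable (FractionRing A) (FractionRing B) := by
  refine Algebra.IsSeparable.of_equiv_equiv (FractionRing.algEquiv A K').symm.toRingEquiv
    (FractionRing.algEquiv B F).symm.toRingEquiv ?_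
  ext _
  exact IsFractionRing.algEquiv_commutes (FractionRing.algEquiv A K').symm
    (FractionRing.algEquiv B F).symm _

/-- only finitely many primes divide the different of a finite separable extension of Dedekind
domains. -/
theorem finite_dvd_different {A B K' F : Type*} [CommRing A] [IsDedekindDomain A] [CommRing B]
    [IsDedekindDomain B] [Algebra A B] [Module.Finite A B] [Module.IsTorsionFree A B] [Field K']
    [Field F] [Algebra A K'] [IsFractionRing A K'] [Algebra B F] [IsFractionRing B F] [Algebra K' F]
    [Algebra A F] [IsScalarTower A K' F] [IsScalarTower A B F] [Algebra.IsSeparable K' F] :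
    {w : HeightOneSpectrum B | w.asIdeal ∣ differentIdeal A B}.Finite := by
  have hsep : Algebra.IsSeparable (FractionRing A) (FractionRing B) :=
    isSeparable_fractionRing (K' := K') (F := F)
  exact Ideal.finite_factors differentIdeal_ne_bot

/-- `ord_le_one_of_not_dvd_different` with separability of arbitrary fraction fields. -/
theorem ord_le_one_of_not_dvd_different' {K F A B K' : Type*} [Field K] [Field F] [Algebra K F]
    [CommRing A] [IsDedekindDomain A] [CommRing B] [IsDedekindDomain B] [Algebra A B]
    [Module.Finite A B] [Module.IsTorsionFree A B]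
    [Field K'] [Algebra A K'] [IsFractionRing A K'] [Algebra K' F] [Algebra A F]
    [IsScalarTower A K' F] [Algebra.IsSeparable K' F]
    [Algebra B F] [IsScalarTower A B F] [IsFractionRing B F] [Algebra K B] [IsScalarTower K B F]
    (a : A) (ha : a ≠ 0) (hmax : (Ideal.span {a}).IsMaximal)
    (w : HeightOneSpectrum B) (hw : ¬ w.asIdeal ∣ differentIdeal A B) :
    (Place.ofHeightOneSpectrum (K := K) w).ord (algebraMap B F (algebraMap A B a)) ≤ 1 := by
  have hsep : Algebra.IsSeparable (FractionRing A) (FractionRing B) :=
    isSeparable_fractionRing (K' := K') (F := F)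
  exact ord_le_one_of_not_dvd_different (K := K) a ha hmax w hw

section FunctionField

variable {K F : Type*} [Field K] [Field F] [Algebra K F] {x : F}

/-- `x - c` as an element of `K[x]`. -/
def genSub (K : Type*) {F : Type*} [Field K] [Field F] [Algebra K F] (x : F) (c : K) :
    polyRing K x :=
  genA K x - algebraMap K (polyRing K x) c

theorem coe_genSub (c : K) : ((genSub K x c : polyRing K x) : F) = x - algebraMap K F c := rfl

theorem genSub_ne_zero (hx : Transcendental K x) (c : K) : genSub K x c ≠ 0 := by
  intro h
  apply hx
  have h1 : x - algebraMap K F c = 0 := by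
    rw [← coe_genSub]; exact congrArg Subtype.val h
  rw [sub_eq_zero] at h1
  rw [h1]
  exact isAlgebraic_algebraMap c

theorem span_genSub_isMaximal (hx : Transcendental K x) (c : K) :
    (Ideal.span {genSub K x c}).IsMaximal := by
  let e := Polynomial.algEquivOfTranscendental K x hx
  have heX : e X = genA K x := by
    ext
    simp [e]
  have he : e (X - C c) = genSub K x c := by
    rw [map_sub, heX, ← Polynomial.algebraMap_eq, AlgEquiv.commutes]
    rfl
  have h1 : (Ideal.span {(X - C c : K[X])}).IsMaximal := by
    have := isPrincipalIdealRing_polyRing hx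
    exact PrincipalIdealRing.isMaximal_of_irreducible (Polynomial.irreducible_X_sub_C c)
  have h2 : Ideal.span {genSub K x c} = Ideal.map e.toRingEquiv (Ideal.span {(X - C c : K[X])}) := by
    rw [Ideal.map_span, Set.image_singleton]
    show Ideal.span {genSub K x c} = Ideal.span {e (X - C c)}
    rw [he]
  rw [h2]
  exact Ideal.map_isMaximal_of_equiv e.toRingEquiv

variable [IsAlgClosed K]

/-- **Finiteness of ramification** for a separating generator. -/
theorem finite_ramified_sep (hx : IsGen K x) [Algebra.IsSeparable K⟮x⟯ F] :
    ∃ Bad : Set (Place K F), Bad.Finite ∧ ∀ v : Place K F, v ∉ Bad → 0 ≤ v.ord x →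
      ∀ c : K, v.ord (x - algebraMap K F c) ≤ 1 := by
  classical
  have := hx.finite
  have hPID := isPrincipalIdealRing_polyRing hx.transcendental
  have hDedB := isDedekindDomain_intRing_sep hx
  have hFracB := isFractionRing_intRing hx
  have hFinB := finite_intRing_sep hx
  have hfaith : FaithfulSMul (polyRing K x) (intRing K x) :=
    (faithfulSMul_iff_algebraMap_injective _ _).mpr
      (fun a b h => Subtype.ext (congrArg (fun z : intRing K x => (z : F)) h))
  have htf : Module.IsTorsionFree (polyRing K x) (intRing K x) := inferInstance
  have hfin := finite_dvd_different (A := polyRing K x) (B := intRing K x) (K' := K⟮x⟯) (F := F)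
  refine ⟨(Place.ofHeightOneSpectrum (K := K) (F := F)) ''
    {w : HeightOneSpectrum (intRing K x) | w.asIdeal ∣ differentIdeal (polyRing K x) (intRing K x)},
    hfin.image _, ?_⟩
  intro v hv hvx c
  have hxv : x ∈ v.toValuationSubring := mem_of_ord_nonneg v hvx
  obtain ⟨w, rfl⟩ := exists_eq_ofHeightOneSpectrum (K := K) (F := F) (R := intRing K x) v
    (intRing_le_of_mem v hxv)
  have hw : ¬ w.asIdeal ∣ differentIdeal (polyRing K x) (intRing K x) := fun h =>
    hv ⟨w, h, rfl⟩
  exact ord_le_one_of_not_dvd_different' (K := K) (F := F) (A := polyRing K x) (B := intRing K x)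
    (K' := K⟮x⟯) (genSub K x c) (genSub_ne_zero hx.transcendental c) (span_genSub_isMaximal hx.transcendental c)
    w hw

end FunctionField

end Fermat.Agent.FF.IFACE.Ramif1
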