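/-
Programme FF (S19), chapter F0 IFACE — helper1.  **Teichmüller lifts fixed by inertia.**

`A ≤ ℚbar` a valuation subring over the prime `ℓ`.  Every element of the residue field `κ_A` is the
residue of an element of `A` fixed by the inertia group `A.inertiaSubgroupIn ℚ` (`0`, or a root of
unity of order prime to `ℓ`).

* `exists_pow_eq_one` : a nonzero element of `κ_A` is a root of unity of order prime to `ℓ`
  (`κ_A` is algebraic over `𝔽_ℓ`: `RelQbar5.isAlgebraic_residueField`);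
* `exists_root_of_unity_lift` : lifting roots of unity of order prime to `ℓ` (`X^m − 1` splits in `A`);
* `exists_inertia_fixed_lift`.
-/
import Mathlib
import Fermat.Agent.ES.P36.ZetaUnr26
import Fermat.Agent.ES.Q58.RelQbar5
import Fermat.Agent.ES.KRON.KronInst10

set_option autoImplicit false
set_option linter.unusedSectionVars false
set_option linter.style.haveILetI false

open Polynomial IntermediateField

noncomputable section

namespace Fermat.Agent.FF.IFACE.Teich1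

local notation "Qb" => AlgebraicClosure ℚ

variable (A : ValuationSubring Qb) {ℓ : ℕ}

/-- a nonzero element of the residue field is a root of unity of order prime to `ℓ`. -/
theorem exists_pow_eq_one (hℓ : ℓ.Prime) (hA : A.LiesOverPrime ℓ)
    {c : IsLocalRing.ResidueField ↥A} (hc : c ≠ 0) :
    ∃ m : ℕ, m ≠ 0 ∧ ¬ ℓ ∣ m ∧ c ^ m = 1 := by
  classical
  haveI : Fact ℓ.Prime := ⟨hℓ⟩
  haveI : CharP (IsLocalRing.ResidueField ↥A) ℓ :=
    Fermat.Agent.ES.KRON.KronInst10.charP_residueField A hℓ hA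
  letI : Algebra (ZMod ℓ) (IsLocalRing.ResidueField ↥A) := ZMod.algebra _ ℓ
  haveI : Algebra.IsAlgebraic (ZMod ℓ) (IsLocalRing.ResidueField ↥A) :=
    Fermat.Agent.ES.Q58.RelQbar5.isAlgebraic_residueField A
  have hint : IsIntegral (ZMod ℓ) c := (Algebra.IsAlgebraic.isAlgebraic c).isIntegral
  haveI : FiniteDimensional (ZMod ℓ) ↥((ZMod ℓ)⟮c⟯) := adjoin.finiteDimensional hint
  haveI : Finite ↥((ZMod ℓ)⟮c⟯) := Module.finite_of_finite (ZMod ℓ)
  letI : Fintype ↥((ZMod ℓ)⟮c⟯) := Fintype.ofFinite _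
  set x : ↥((ZMod ℓ)⟮c⟯) := ⟨c, mem_adjoin_simple_self _ c⟩ with hx
  have hx0 : x ≠ 0 := fun h => hc (congrArg Subtype.val h)
  have hpow := FiniteField.pow_card_sub_one_eq_one x hx0
  haveI : CharP ↥((ZMod ℓ)⟮c⟯) ℓ := charP_of_injective_algebraMap
    (algebraMap (ZMod ℓ) ↥((ZMod ℓ)⟮c⟯)).injective ℓ
  obtain ⟨n, -, hcard⟩ := FiniteField.card ↥((ZMod ℓ)⟮c⟯) ℓ
  have hn : 1 ≤ (n : ℕ) := n.2
  have hdvd : ℓ ∣ Fintype.card ↥((ZMod ℓ)⟮c⟯) := by
    rw [hcard]; exact dvd_pow_self ℓ (by omega)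
  have hcard2 : 2 ≤ Fintype.card ↥((ZMod ℓ)⟮c⟯) := by
    rw [hcard]
    calc 2 ≤ ℓ := hℓ.two_le
      _ = ℓ ^ 1 := (pow_one ℓ).symm
      _ ≤ ℓ ^ (n : ℕ) := Nat.pow_le_pow_right hℓ.pos hn
  refine ⟨Fintype.card ↥((ZMod ℓ)⟮c⟯) - 1, by omega, ?_, ?_⟩
  · intro h
    have h1 : ℓ ∣ 1 := by
      have := (Nat.dvd_sub hdvd h)
      rwa [Nat.sub_sub_self (by omega)] at this
    exact hℓ.one_lt.ne' (Nat.dvd_one.mp h1)
  · have := congrArg (fun z : ↥((ZMod ℓ)⟮c⟯) => (z : IsLocalRing.ResidueField ↥A)) hpow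
    simpa using this

/-- roots of unity of order prime to `ℓ` lift to roots of unity of `A`. -/
theorem exists_root_of_unity_lift {m : ℕ} (hm : m ≠ 0)
    {c : IsLocalRing.ResidueField ↥A} (hc : c ^ m = 1) :
    ∃ θ : ↥A, (θ : Qb) ^ m = 1 ∧ IsLocalRing.residue ↥A θ = c := by
  classical
  haveI : NeZero m := ⟨hm⟩
  have hm0 : 0 < m := Nat.pos_of_ne_zero hm
  obtain ⟨γ, rfl⟩ := IsLocalRing.residue_surjective c
  -- a primitive root of unity in `A`
  have hz : Fermat.Agent.X0.zetaK m ^ m = 1 := Fermat.Agent.X0.zetaK_pow_self m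
  set ζ : ↥A := ⟨Fermat.Agent.X0.zetaK m,
    Fermat.Agent.ES.J.CycloChar8.mem_of_pow_eq_one hm hz⟩ with hζdef
  have hζ : IsPrimitiveRoot ζ m :=
    IsPrimitiveRoot.of_map_of_injective (f := A.subtype)
      (Fermat.Agent.X0.isPrimitiveRoot_zetaK m) Subtype.val_injective
  have hγ : γ ^ m - 1 ∈ IsLocalRing.maximalIdeal ↥A := by
    rw [← IsLocalRing.residue_eq_zero_iff, map_sub, map_pow, hc, map_one, sub_self]
  have h := congrArg (Polynomial.eval γ) (X_pow_sub_one_eq_prod hm0 hζ)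
  simp only [eval_sub, eval_pow, eval_X, eval_one, eval_prod, eval_C] at h
  rw [h, Ideal.IsPrime.prod_mem_iff] at hγ
  obtain ⟨θ, hθ, hθP⟩ := hγ
  have hθm : θ ^ m = 1 := (mem_nthRootsFinset hm0 1).mp hθ
  refine ⟨θ, ?_, ?_⟩
  · have := congrArg (fun z : ↥A => (z : Qb)) hθm
    simpa using this
  · have := (IsLocalRing.residue_eq_zero_iff _).mpr hθP
    rw [map_sub, sub_eq_zero] at this
    exact this.symm

/-- **Teichmüller lifts**: every residue class has a representative fixed by inertia. -/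
theorem exists_inertia_fixed_lift (hℓ : ℓ.Prime) (hA : A.LiesOverPrime ℓ)
    (c : IsLocalRing.ResidueField ↥A) :
    ∃ a : ↥A, IsLocalRing.residue ↥A a = c ∧
      ∀ τ : Qb ≃ₐ[ℚ] Qb, τ ∈ A.inertiaSubgroupIn ℚ → τ (a : Qb) = (a : Qb) := by
  rcases eq_or_ne c 0 with rfl | hc
  · exact ⟨0, map_zero _, fun τ _ => by simp⟩
  obtain ⟨m, hm0, hℓm, hcm⟩ := exists_pow_eq_one A hℓ hA hc
  obtain ⟨θ, hθ, hres⟩ := exists_root_of_unity_lift A hm0 hcm
  exact ⟨θ, hres, fun τ hτ =>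
    Fermat.Agent.ES.P36.ZetaUnr26.inertia_fixes_rootOfUnity hℓ hA hℓm hθ hτ⟩

end Fermat.Agent.FF.IFACE.Teich1
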