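/-
Programme FF (S19), chapter F0 IFACE — helper1.  **Inertia-fixed good uniformizers outside a finite
set of discs** (risk (n6)).

For the reduction datum `D = Inst1.redDatum …` of `X₀(M)` along `A | ℓ`: the coordinate `t` (the
Hauptmodul, rational coefficients) reduces to a SEPARATING generator `t~` of `F~ / κ`, so `t~` is
unramified outside a finite set of places (`Ramif1.finite_ramified_sep`).  For a place `Q` of `F~`
outside `Bad := {ramified} ∪ {poles of t~}` and `c~ := t~(Q)`, the function `u := t − [c~]`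
(`[c~] ∈ A` the Teichmüller lift, `Teich1`) is integral, without poles on the disc `U(Q)`, fixed by
inertia, and `red u = t~ − c~` is a uniformizer at `Q`.

* `exists_bad_fixed_unif` : the statement above;
* `exists_bad_fixed_centre` : …hence `U(Q)` contains a place `P` fixed by inertia, centre of the good
  uniformizer `u` (`RedAut7.exists_unique_isGoodUnif_of_ord_red`, `RedAut.smul_centre_eq`).
-/
import Mathlib
import Fermat.Agent.FF.IFACE.GalDatum1
import Fermat.Agent.FF.IFACE.Ramif1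
import Fermat.Agent.FF.IFACE.Teich1

set_option autoImplicit false
set_option linter.unusedSectionVars false
set_option linter.style.longLine false
set_option synthInstance.maxHeartbeats 400000

noncomputable section

open AlgebraicCurve ModularCurve HahnSeries IntermediateField

namespace Fermat.Agent.FF.IFACE.TameUnif1

open Fermat.Agent.ES.RED.Contract8 Fermat.Agent.ES.RED.TwoCharts8 Fermat.Agent.ES.RED.GaloisInst21
  Fermat.Agent.ES.RED.RedMain15 Fermat.Agent.ES.RED.GaussRing15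
  Fermat.Agent.X0 Fermat.Agent.X0.FF Fermat.Agent.RED.Interface4 Fermat.Agent.RED.BASE
  Fermat.Agent.FF.IFACE.GaussVal1 Fermat.Agent.FF.IFACE.GalInst1 Fermat.Agent.FF.IFACE.Inst1
  Fermat.Agent.FF.IFACE.GalDatum1
  Fermat.Agent.FF.RED.RedDatum7 Fermat.Agent.FF.RED.RedAut7 Fermat.Agent.FF.RED.Disc7
  Fermat.Agent.FF.RED.Expand7

/-- local shortcut instance (instance search for this `Algebra` takes ~5 s each time otherwise). -/
local instance (priority := 100000) algKF (A : ValuationSubring Qbar) (M : ℕ) [NeZero M] :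
    Algebra (kA A) ↥(modularFunctionFieldFullC (kA A) M) := inferInstance

variable {M : ℕ} [NeZero M] (n e : ℕ) [NeZero n] (ℓ : ℕ) [Fact ℓ.Prime] (hℓM : ¬ ℓ ∣ M)
  (hmem : Interface12.TMem n e M) (hgen : Interface12.TGenBase n e)
  (A : ValuationSubring Qbar) (hA : A.LiesOverPrime ℓ)
  {x : X0.FF M} {hx : IsGen Qbar x}
  (T : TwoCharts A hx ↥(modularFunctionFieldFullC (kA A) M))
  (hS0 : CoeffChart (F₀ := modularFunctionFieldFull M) T.S0)
  (hS1 : CoeffChart (F₀ := modularFunctionFieldFull M) T.S1)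
  (hs0 : T.S0.s = Interface12.tF M hmem)
  (peel0 : ∀ (P : Place Qbar (X0.FF M)) (hP : T.S0.InChart P), T.S0.PeelA P hP)
  (peel1 : ∀ (P : Place Qbar (X0.FF M)) (hP : T.S1.InChart P), T.S1.PeelA P hP)

include hℓM hgen hA hS0 hS1 hs0 peel0 peel1 in
/-- **(n6), raw form** (no `RedDatum` packaging): outside a finite set of places `Q` of `F~` there
is an inertia-fixed chart function `ub = t − [c~]`, pole-free on the disc over `Q`, whose reduction is
a uniformizer at `Q`. -/
theorem exists_bad_raw :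
    ∃ Bad : Finset (Place (kA A) ↥(modularFunctionFieldFullC (kA A) M)), ∀ Q ∉ Bad,
      ∃ ub : ↥T.S0.B,
        (∀ P : Place Qbar (X0.FF M), T.r P = Q → 0 ≤ P.ord ((ub : ↥T.S0.B) : X0.FF M)) ∧
        Q.ord (T.S0.red ub) = 1 ∧
        ∀ τ : Qbar ≃ₐ[ℚ] Qbar, τ ∈ A.inertiaSubgroupIn ℚ →
          arithmeticGalois (modularFunctionFieldFull M) τ • ((ub : ↥T.S0.B) : X0.FF M) =
            ((ub : ↥T.S0.B) : X0.FF M) := by
  classical
  have : IsAlgClosed (kA A) := Fermat.Agent.ES.KRON.KronInst10.isAlgClosed_residueField A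
  have hin := Fermat.Agent.ES.RED.RedInst15.chartInputs_both n e M ℓ hℓM hmem hgen A hA T hS0 hS1
    hs0 peel0 peel1
  have h0 := hin.1
  have hsep := h0.sep
  have hxt := h0.gent
  obtain ⟨Bad₁, hfin₁, hBad₁⟩ := Fermat.Agent.FF.IFACE.Ramif1.finite_ramified_sep
    (K := kA A) (F := ↥(modularFunctionFieldFullC (kA A) M)) hxt
  have hfin₂ := Fermat.Agent.ES.RED.SumOrdSep15.finite_poles_sep
    (K := kA A) (F := ↥(modularFunctionFieldFullC (kA A) M)) hxt
  refine ⟨(hfin₁.union hfin₂).toFinset, fun Q hQ => ?_⟩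
  rw [Set.Finite.mem_toFinset, Set.mem_union, not_or] at hQ
  obtain ⟨hQ1, hQ2⟩ := hQ
  have hQ0 : 0 ≤ Q.ord (T.S0.red T.S0.sB) := not_lt.mp hQ2
  obtain ⟨c, hc⟩ := FF.exists_ord_sub_pos hxt Q (FF.mem_of_ord_nonneg Q hQ0)
  have hpos : 0 < Q.ord (T.S0.red T.S0.sB - algebraMap (kA A) _ c) := by
    rcases hc with h | h
    · exfalso
      apply hxt.transcendental
      rw [h]
      exact isAlgebraic_algebraMap c
    · exact h
  have hle := hBad₁ Q hQ1 hQ0 c
  have hord : Q.ord (T.S0.red T.S0.sB - algebraMap (kA A) _ c) = 1 := by omega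
  obtain ⟨a, ha, hfix⟩ := Fermat.Agent.FF.IFACE.Teich1.exists_inertia_fixed_lift A
    (Fact.out : ℓ.Prime) hA c
  have hred : T.S0.red (T.S0.sB - T.S0.const a) =
      T.S0.red T.S0.sB - algebraMap (kA A) _ c := by
    rw [map_sub, T.S0.red_const', ha]
  refine ⟨T.S0.sB - T.S0.const a, ?_, ?_, ?_⟩
  · intro P hP
    have hPin : T.S0.InChart P := (hrmem0 T hxt P).1 (by rw [hP]; exact hQ0)
    exact Fermat.Agent.ES.RED.R2Adapter9.ord_nonneg T.S0 P hPin _
  · rw [hred]
    exact hord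
  · intro τ hτ
    show arithmeticGalois (modularFunctionFieldFull M) τ •
      (T.S0.s - algebraMap Qbar (X0.FF M) (a : Qbar)) = T.S0.s - algebraMap Qbar (X0.FF M) (a : Qbar)
    rw [smul_sub, hS0.smul_s τ, SemilinearAut.smul_algebraMap]
    congr 2
    exact hfix τ hτ


/-- **(n6)** with the shortcut instance. -/
theorem exists_bad_fixed_unif_aux :
    ∃ Bad : Finset (Place (kA A) ↥(modularFunctionFieldFullC (kA A) M)), ∀ Q ∉ Bad,
      ∃ u : (redDatum n e ℓ hℓM hmem hgen A hA T hS0 hS1 hs0 peel0 peel1).G,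
        (redDatum n e ℓ hℓM hmem hgen A hA T hS0 hS1 hs0 peel0 peel1).PoleFree (u : X0.FF M) Q ∧
        Q.ord ((redDatum n e ℓ hℓM hmem hgen A hA T hS0 hS1 hs0 peel0 peel1).red u) = 1 ∧
        ∀ τ : Qbar ≃ₐ[ℚ] Qbar, τ ∈ A.inertiaSubgroupIn ℚ →
          arithmeticGalois (modularFunctionFieldFull M) τ • (u : X0.FF M) = (u : X0.FF M) := by
  obtain ⟨Bad, hBad⟩ := exists_bad_raw n e ℓ hℓM hmem hgen A hA T hS0 hS1 hs0 peel0 peel1
  refine ⟨Bad, fun Q hQ => ?_⟩
  obtain ⟨ub, h1, h2, h3⟩ := hBad Q hQ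
  refine ⟨⟨((ub : ↥T.S0.B) : X0.FF M), le_fracRing _ (chart_le_gauss hS0 ub.2)⟩, ?_, ?_, h3⟩
  · intro P hP
    exact h1 P hP
  · show Q.ord (fracRed (gaussRedN A (resA A) M)
      ⟨((ub : ↥T.S0.B) : X0.FF M), le_fracRing _ (chart_le_gauss hS0 ub.2)⟩) = 1
    have e1 := fracRed_of_mem (gaussRedN A (resA A) M)
      ⟨((ub : ↥T.S0.B) : X0.FF M), chart_le_gauss hS0 ub.2⟩
    rw [gaussRed_of_chart hS0 ub] at e1
    rw [e1]
    exact h2

/-- **every disc outside a finite set contains an inertia-fixed place** (shortcut instance). -/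
theorem exists_bad_fixed_centre_aux :
    ∃ Bad : Finset (Place (kA A) ↥(modularFunctionFieldFullC (kA A) M)), ∀ Q ∉ Bad,
      ∃ (P : Place Qbar (X0.FF M))
        (u : (redDatum n e ℓ hℓM hmem hgen A hA T hS0 hS1 hs0 peel0 peel1).G),
        (redDatum n e ℓ hℓM hmem hgen A hA T hS0 hS1 hs0 peel0 peel1).r P = Q ∧
        IsGoodUnif (redDatum n e ℓ hℓM hmem hgen A hA T hS0 hS1 hs0 peel0 peel1) P u ∧
        (∀ τ : Qbar ≃ₐ[ℚ] Qbar, τ ∈ A.inertiaSubgroupIn ℚ →
          arithmeticGalois (modularFunctionFieldFull M) τ • (u : X0.FF M) = (u : X0.FF M)) ∧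
        ∀ τ : Qbar ≃ₐ[ℚ] Qbar, τ ∈ A.inertiaSubgroupIn ℚ →
          arithmeticGalois (modularFunctionFieldFull M) τ • P = P := by
  obtain ⟨Bad, hBad⟩ := exists_bad_fixed_unif_aux n e ℓ hℓM hmem hgen A hA T hS0 hS1 hs0 peel0 peel1
  refine ⟨Bad, fun Q hQ => ?_⟩
  obtain ⟨u, hpf, hord, hfix⟩ := hBad Q hQ
  obtain ⟨P, ⟨hP, hgood⟩, -⟩ := exists_unique_isGoodUnif_of_ord_red u hpf hord
  refine ⟨P, u, hP, hgood, hfix, fun τ hτ => ?_⟩
  obtain ⟨h, hgt⟩ := redAut_gt_of_mem_inertia n e ℓ hℓM hmem hgen A hA T hS0 hS1 hs0 peel0 peel1 hτ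
  have hQ' : (redAut n e ℓ hℓM hmem hgen A hA T hS0 hS1 hs0 peel0 peel1 ⟨τ, h⟩).gt • Q = Q := by
    rw [hgt, one_smul]
  exact (redAut n e ℓ hℓM hmem hgen A hA T hS0 hS1 hs0 peel0 peel1 ⟨τ, h⟩).smul_centre_eq hQ'
    { P := P, hP := hP, u := u, hu := hgood } (hfix τ hτ)

section Final

attribute [-instance] algKF

set_option maxHeartbeats 1600000 in
/-- **(n6)**: outside a finite set of discs there are inertia-fixed functions of the Gauss valuation
ring, pole-free on the disc, whose reduction is a uniformizer (statement elaborated WITHOUT the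
local shortcut instance). -/
theorem exists_bad_fixed_unif :
    ∃ Bad : Finset (Place (kA A) ↥(modularFunctionFieldFullC (kA A) M)), ∀ Q ∉ Bad,
      ∃ u : (redDatum n e ℓ hℓM hmem hgen A hA T hS0 hS1 hs0 peel0 peel1).G,
        (redDatum n e ℓ hℓM hmem hgen A hA T hS0 hS1 hs0 peel0 peel1).PoleFree (u : X0.FF M) Q ∧
        Q.ord ((redDatum n e ℓ hℓM hmem hgen A hA T hS0 hS1 hs0 peel0 peel1).red u) = 1 ∧
        ∀ τ : Qbar ≃ₐ[ℚ] Qbar, τ ∈ A.inertiaSubgroupIn ℚ →
          arithmeticGalois (modularFunctionFieldFull M) τ • (u : X0.FF M) = (u : X0.FF M) :=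
  exists_bad_fixed_unif_aux n e ℓ hℓM hmem hgen A hA T hS0 hS1 hs0 peel0 peel1

set_option maxHeartbeats 1600000 in
/-- **every disc outside a finite set contains an inertia-fixed place**, the centre of an
inertia-fixed good uniformizer. -/
theorem exists_bad_fixed_centre :
    ∃ Bad : Finset (Place (kA A) ↥(modularFunctionFieldFullC (kA A) M)), ∀ Q ∉ Bad,
      ∃ (P : Place Qbar (X0.FF M))
        (u : (redDatum n e ℓ hℓM hmem hgen A hA T hS0 hS1 hs0 peel0 peel1).G),
        (redDatum n e ℓ hℓM hmem hgen A hA T hS0 hS1 hs0 peel0 peel1).r P = Q ∧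
        IsGoodUnif (redDatum n e ℓ hℓM hmem hgen A hA T hS0 hS1 hs0 peel0 peel1) P u ∧
        (∀ τ : Qbar ≃ₐ[ℚ] Qbar, τ ∈ A.inertiaSubgroupIn ℚ →
          arithmeticGalois (modularFunctionFieldFull M) τ • (u : X0.FF M) = (u : X0.FF M)) ∧
        ∀ τ : Qbar ≃ₐ[ℚ] Qbar, τ ∈ A.inertiaSubgroupIn ℚ →
          arithmeticGalois (modularFunctionFieldFull M) τ • P = P :=
  exists_bad_fixed_centre_aux n e ℓ hℓM hmem hgen A hA T hS0 hS1 hs0 peel0 peel1

end Final

end Fermat.Agent.FF.IFACE.TameUnif1
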